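import Fermat.Agent.KummerReduction.Gauss
import Mathlib.RingTheory.LaurentSeries
import Mathlib.RingTheory.PowerSeries.Ideal
import Mathlib.RingTheory.IntegralClosure.IntegrallyClosed
import Mathlib.RingTheory.DiscreteValuationRing.Basic
import Mathlib.RingTheory.UniqueFactorizationDomain.GCDMonoid
import Mathlib.Algebra.GCDMonoid.IntegrallyClosed

/-!
# Normality of the ring of integral Laurent series over a discretely valued field

For `L` with discrete valuation, `O = A ∩ L` is a discrete valuation ring, and an element of the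
field of quotients of bounded series over `L` which is integral over the integral series over `L`
is an integral series.
-/

set_option autoImplicit false

noncomputable section

open ModularCurve Fermat.Agent.KummerReduction
open scoped LaurentSeries

namespace Fermat.Agent.Carayol.Local

variable {K k : Type} [Field K] [Field k] (R : ResidueData K k)

/-- The integers of the subfield `L`. -/
def intOver (L : Subfield K) : Subring K := R.A.toSubring ⊓ L.toSubring

/-- `intOver R L` consists of the integral elements of `L`. -/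
theorem mem_intOver {L : Subfield K} {x : K} : x ∈ intOver R L ↔ x ∈ R.A ∧ x ∈ L := Iff.rfl

/-- Series with integral coefficients in `L`. -/
def seriesOver (L : Subfield K) : Subring (LaurentSeries K) :=
  R.intSeries ⊓ (ResidueData.overSubfield L).toSubring

/-- `seriesOver R L` consists of the series with integral coefficients in `L`. -/
theorem mem_seriesOver {L : Subfield K} {x : LaurentSeries K} :
    x ∈ seriesOver R L ↔ ∀ n, x.coeff n ∈ R.A ∧ x.coeff n ∈ L := by
  rw [seriesOver, Subring.mem_inf, R.mem_intSeries, Subfield.mem_toSubring,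
    ResidueData.mem_overSubfield, forall_and]

variable {R} {L : Subfield K} {ϖ : K}

theorem uniformizer_mem_intOver (hd : R.Discrete L ϖ) : ϖ ∈ intOver R L :=
  ⟨R.A.nonunits_le hd.nonunit, hd.mem⟩

/-- The units of `intOver R L` are the elements of valuation one. -/
theorem isUnit_intOver_iff {x : intOver R L} : IsUnit x ↔ R.A.valuation (x : K) = 1 := by
  constructor
  · rintro ⟨u, rfl⟩
    have h1 : R.A.valuation ((u : intOver R L) : K) *
        R.A.valuation ((↑u⁻¹ : intOver R L) : K) = 1 := by
      rw [← map_mul, ← Subring.coe_mul, Units.mul_inv, Subring.coe_one, map_one]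
    refine le_antisymm ((R.A.valuation_le_one_iff _).2 ((mem_intOver R).1 (u : intOver R L).2).1) ?_
    rw [← h1]
    exact mul_le_of_le_one_right'
      ((R.A.valuation_le_one_iff _).2 ((mem_intOver R).1 (↑u⁻¹ : intOver R L).2).1)
  · intro h
    have hx0 : (x : K) ≠ 0 := fun h0 => by simp [h0] at h
    have hinv : (x : K)⁻¹ ∈ intOver R L := (mem_intOver R).2
      ⟨(R.A.valuation_le_one_iff _).1 (by rw [map_inv₀, h, inv_one]),
        inv_mem ((mem_intOver R).1 x.2).2⟩
    exact IsUnit.of_mul_eq_one ⟨_, hinv⟩ (Subtype.ext (mul_inv_cancel₀ hx0))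

/-- Elements of `A ∩ L` are powers of the uniformiser times units. -/
theorem exists_eq_pow_mul_intOver (hd : R.Discrete L ϖ) {x : intOver R L} (hx : x ≠ 0) :
    ∃ (n : ℕ) (u : (intOver R L)ˣ), x = ⟨ϖ, uniformizer_mem_intOver hd⟩ ^ n * u := by
  have hx0 : (x : K) ≠ 0 := fun h => hx (Subtype.ext h)
  obtain ⟨j, hj⟩ := hd.exists_zpow _ ((mem_intOver R).1 x.2).2 hx0
  have hj0 : 0 ≤ j := by
    rw [← hd.val_le_zpow_iff, ← hj]
    exact (R.A.valuation_le_one_iff _).2 ((mem_intOver R).1 x.2).1
  obtain ⟨n, rfl⟩ := Int.eq_ofNat_of_zero_le hj0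
  have hv0 : R.A.valuation ϖ ≠ 0 := (Valuation.ne_zero_iff _).2 hd.ne_zero
  have hv : R.A.valuation ((x : K) / ϖ ^ n) = 1 := by
    rw [map_div₀, map_pow, hj, zpow_natCast, div_self (pow_ne_zero _ hv0)]
  have hmem : (x : K) / ϖ ^ n ∈ intOver R L := (mem_intOver R).2
    ⟨(R.A.valuation_le_one_iff _).1 hv.le,
      div_mem ((mem_intOver R).1 x.2).2 (pow_mem hd.mem _)⟩
  refine ⟨n, (isUnit_intOver_iff (x := ⟨_, hmem⟩) |>.2 hv).unit, Subtype.ext ?_⟩
  rw [Subring.coe_mul, IsUnit.unit_spec, SubmonoidClass.coe_pow]
  exact (mul_div_cancel₀ _ (pow_ne_zero _ hd.ne_zero)).symm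

/-- `A ∩ L` is a discrete valuation ring. -/
theorem isDiscreteValuationRing_intOver (hd : R.Discrete L ϖ) :
    IsDiscreteValuationRing (intOver R L) := by
  set π : intOver R L := ⟨ϖ, uniformizer_mem_intOver hd⟩
  have hne : π ≠ 0 := fun h => hd.ne_zero (congrArg Subtype.val h)
  have hu : ¬ IsUnit π := by rw [isUnit_intOver_iff]; exact hd.val_lt_one.ne
  refine IsDiscreteValuationRing.ofHasUnitMulPowIrreducibleFactorization ⟨π, ⟨hu,
    fun a b hab => ?_⟩, fun {x} hx => ?_⟩
  · have ha : a ≠ 0 := fun h => hne (by rw [hab, h, zero_mul])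
    have hb : b ≠ 0 := fun h => hne (by rw [hab, h, mul_zero])
    obtain ⟨i, u, rfl⟩ := exists_eq_pow_mul_intOver hd ha
    obtain ⟨j, w, rfl⟩ := exists_eq_pow_mul_intOver hd hb
    rcases Nat.eq_zero_or_pos i with rfl | hi
    · exact Or.inl (by simp)
    rcases Nat.eq_zero_or_pos j with rfl | hj
    · exact Or.inr (by simp)
    exfalso
    refine hu (IsUnit.of_mul_eq_one (π ^ (i + j - 2) * (u * w)) ?_)
    have h := hab
    rw [mul_mul_mul_comm, ← pow_add, show i + j = 1 + (1 + (i + j - 2)) by omega, pow_add, pow_one,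
      pow_add, pow_one, mul_assoc] at h
    conv_lhs at h => rw [← mul_one π]
    rw [← mul_assoc]
    exact (mul_left_cancel₀ hne h).symm
  · obtain ⟨n, u, rfl⟩ := exists_eq_pow_mul_intOver hd hx
    exact ⟨n, ⟨u, rfl⟩⟩

/-- The map from series over `A ∩ L` to series over `K`. -/
def toSeries (R : ResidueData K k) (L : Subfield K) :
    LaurentSeries (intOver R L) →+* LaurentSeries K :=
  coeffMap (intOver R L).subtype

/-- `toSeries` is injective. -/
theorem toSeries_injective : Function.Injective (toSeries R L) := by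
  intro x y h
  ext n
  exact congrArg (fun z : LaurentSeries K => z.coeff n) h

/-- The image of `toSeries` is `seriesOver R L`. -/
theorem range_toSeries : (toSeries R L).range = seriesOver R L := by
  ext x
  rw [mem_seriesOver, RingHom.mem_range]
  constructor
  · rintro ⟨y, rfl⟩ n
    exact (mem_intOver R).1 (y.coeff n).2
  · intro h
    refine ⟨⟨fun n => ⟨x.coeff n, (mem_intOver R).2 (h n)⟩, ?_⟩, ?_⟩
    · refine x.isPWO_support.mono fun n hn => ?_
      simpa [Function.mem_support, Subtype.ext_iff] using hn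
    · ext n; rfl

/-- Laurent series over a principal ideal domain form an integrally closed domain. -/
theorem isIntegrallyClosed_laurentSeries (O : Type) [CommRing O] [IsDomain O]
    [IsPrincipalIdealRing O] : IsIntegrallyClosed (LaurentSeries O) := by
  classical
  let := UniqueFactorizationMonoid.strongNormalizationMonoid (α := PowerSeries O)
  let := UniqueFactorizationMonoid.toNormalizedGCDMonoid (PowerSeries O)
  exact isIntegrallyClosed_of_isLocalization (LaurentSeries O)
    (Submonoid.powers (PowerSeries.X : PowerSeries O))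
    (powers_le_nonZeroDivisors_of_noZeroDivisors PowerSeries.X_ne_zero)

theorem isIntegral_range {x : LaurentSeries K} (h : IsIntegral (seriesOver R L) x) :
    (toSeries R L).IsIntegralElem x := by
  obtain ⟨P, hP, hx⟩ := h
  have hlift : P.map (seriesOver R L).subtype ∈ Polynomial.lifts (toSeries R L) := by
    rw [Polynomial.lifts_iff_coeff_lifts]
    intro n
    have hmem : ((P.coeff n : seriesOver R L) : LaurentSeries K) ∈ (toSeries R L).range := by
      rw [range_toSeries]; exact (P.coeff n).2
    rw [Polynomial.coeff_map]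
    exact hmem
  obtain ⟨Q, hQ, -, hQm⟩ := Polynomial.lifts_and_degree_eq_and_monic hlift (hP.map _)
  refine ⟨Q, hQm, ?_⟩
  rw [← Polynomial.eval_map, hQ, Polynomial.eval_map]
  exact hx

/-- A quotient of bounded series over `L` which is integral over the integral series over `L` is
an integral series over `L`. -/
theorem mem_seriesOver_of_isIntegral (hd : R.Discrete L ϖ) {x : LaurentSeries K}
    (hx : x ∈ R.fracOver L ϖ (R.A.nonunits_le hd.nonunit))
    (hint : IsIntegral (seriesOver R L) x) : x ∈ seriesOver R L := by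
  rcases eq_or_ne x 0 with rfl | hx0
  · exact zero_mem _
  obtain ⟨z, a, b, ha, hb, haL, hbL, heq⟩ := hd.exists_normal_form hx0 hx
  -- write `x` as a quotient of two integral series over `L`
  have hC : ∀ c : K, c ∈ R.A → c ∈ L → HahnSeries.C c ∈ seriesOver R L := fun c hcA hcL => by
    refine (mem_seriesOver R).2 fun n => ?_
    by_cases hn : n = 0
    · subst hn; simpa [HahnSeries.C_apply] using And.intro hcA hcL
    · simp [HahnSeries.C_apply, HahnSeries.coeff_single_of_ne hn]
  have haO : a ∈ seriesOver R L := ⟨ha.mem, haL⟩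
  have hbO : b ∈ seriesOver R L := ⟨hb.mem, hbL⟩
  have hpow : ∀ i : ℕ, HahnSeries.C (ϖ ^ i) ∈ seriesOver R L := fun i =>
    hC _ (pow_mem (show ϖ ∈ R.A from R.A.nonunits_le hd.nonunit) i) (pow_mem hd.mem i)
  obtain ⟨num, den, hnum, hden, hden0, hfrac⟩ : ∃ num den : LaurentSeries K,
      num ∈ seriesOver R L ∧ den ∈ seriesOver R L ∧ den ≠ 0 ∧ x * den = num := by
    rcases le_total 0 z with hz | hz
    · obtain ⟨i, rfl⟩ := Int.eq_ofNat_of_zero_le hz
      exact ⟨HahnSeries.C (ϖ ^ i) * a, b, mul_mem (hpow i) haO, hbO, hb.ne_zero,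
        by rw [heq, zpow_natCast]⟩
    · obtain ⟨i, hi⟩ := Int.eq_ofNat_of_zero_le (show 0 ≤ -z by omega)
      refine ⟨a, HahnSeries.C (ϖ ^ i) * b, haO, mul_mem (hpow i) hbO,
        mul_ne_zero (HahnSeries.C_ne_zero (pow_ne_zero _ hd.ne_zero)) hb.ne_zero, ?_⟩
      rw [mul_left_comm, heq, ← mul_assoc, ← map_mul, ← zpow_natCast, ← hi,
        ← zpow_add₀ hd.ne_zero, neg_add_cancel, zpow_zero, map_one, one_mul]
  obtain ⟨a', rfl⟩ : num ∈ (toSeries R L).range := by rw [range_toSeries]; exact hnum
  obtain ⟨b', rfl⟩ : den ∈ (toSeries R L).range := by rw [range_toSeries]; exact hden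
  have hint' := isIntegral_range hint
  -- integral closedness
  have := isDiscreteValuationRing_intOver hd
  have := isIntegrallyClosed_laurentSeries (intOver R L)
  let Fr := FractionRing (LaurentSeries (intOver R L))
  have hinj := toSeries_injective (R := R) (L := L)
  let emb : Fr →+* LaurentSeries K := IsFractionRing.lift hinj
  have hb' : b' ≠ 0 := fun h => hden0 (by rw [h, map_zero])
  have hembmap : ∀ y, emb (algebraMap _ Fr y) = toSeries R L y := fun y =>
    IsFractionRing.lift_algebraMap hinj y
  set y : Fr := algebraMap _ Fr a' / algebraMap _ Fr b'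
  have hy : emb y = x := by
    rw [map_div₀, hembmap, hembmap, ← hfrac, mul_div_cancel_right₀ _ hden0]
  have hyint : IsIntegral (LaurentSeries (intOver R L)) y := by
    obtain ⟨P, hP, hPx⟩ := hint'
    refine ⟨P, hP, emb.injective ?_⟩
    rw [map_zero, Polynomial.hom_eval₂, hy, ← hPx]
    congr 1
    exact RingHom.ext hembmap
  obtain ⟨c, hc⟩ := IsIntegrallyClosed.isIntegral_iff.1 hyint
  rw [← hy, ← hc, hembmap, ← range_toSeries]
  exact ⟨c, rfl⟩

/-- The same conclusion, in the ring of integral series. -/
theorem mem_intSeries_of_isIntegral (hd : R.Discrete L ϖ) {x : LaurentSeries K}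
    (hx : x ∈ R.fracOver L ϖ (R.A.nonunits_le hd.nonunit))
    (hint : IsIntegral (seriesOver R L) x) : x ∈ R.intSeries :=
  (mem_seriesOver_of_isIntegral hd hx hint).1

end Fermat.Agent.Carayol.Local
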