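import Fermat.Agent.Carayol.Local.Inertia
import Fermat.Agent.ModularFunctionField.ModularPolynomial
import Mathlib.RingTheory.DedekindDomain.IntegralClosure
import Mathlib.RingTheory.Polynomial.Basic
import Mathlib.RingTheory.Polynomial.UniqueFactorization
import Mathlib.RingTheory.UniqueFactorizationDomain.GCDMonoid
import Mathlib.Algebra.GCDMonoid.IntegrallyClosed
import Mathlib.RingTheory.IntegralClosure.IsIntegralClosure.Basic

/-!
# The model is a finite normal algebra over `W[j]`

`jPolyRing W ≅ W[X]`; the model of level `M` is a Noetherian integrally closed domain, finite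
over `W[j]`, with fraction field the level field over the inertia field.
-/

set_option autoImplicit false

noncomputable section

open Fermat.Agent.GaloisBasics (Qbar)
open ModularCurve Fermat.Agent.ModularFunctionField
open scoped Polynomial

namespace Fermat.Agent.Carayol.Local

variable {A : ValuationSubring Qbar} {q : ℕ}

/-- `ℚ̄` maps to series as constants. -/
theorem algebraMap_eq_C (c : Qbar) : algebraMap Qbar (LaurentSeries Qbar) c = HahnSeries.C c := by
  rw [algebraMap_laurentSeries_eq_single]; rfl

/-- Series over `ℚ̄` have characteristic zero. -/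
theorem charZero_laurentSeries_Qbar : CharZero (LaurentSeries Qbar) :=
  charZero_of_injective_algebraMap (algebraMap Qbar (LaurentSeries Qbar)).injective

theorem jT_one_eq : jT Qbar 1 = jBar := by
  rw [jT, qExpand_one_apply, jBar, coeffEmb, ← jqModC_rat, coeffMap_jqC]

/-- Evaluation `W[X] → W[j]`. -/
def jEval (A : ValuationSubring Qbar) : (unramInt A)[X] →+* LaurentSeries Qbar :=
  (evalJT Qbar 1).comp (Polynomial.mapRingHom (unramInt A).subtype)

/-- `jEval` fixes constants. -/
theorem jEval_C (c : unramInt A) : jEval A (Polynomial.C c) = HahnSeries.C (c : Qbar) := by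
  simp [jEval, evalJT_C]

/-- `jEval` sends `X` to `j`. -/
theorem jEval_X : jEval A Polynomial.X = jBar := by
  simp [jEval, evalJT_X, jT_one_eq]

theorem jEval_injective : Function.Injective (jEval A) :=
  (evalJT_injective 1).comp (Polynomial.map_injective _ Subtype.val_injective)

/-- Constants in `W` lie in `W[j]`. -/
theorem C_mem_jPolyRing {c : Qbar} (hc : c ∈ unramInt A) :
    HahnSeries.C c ∈ jPolyRing (unramInt A) :=
  Subring.subset_closure (Or.inl ⟨c, hc, algebraMap_eq_C c⟩)

/-- `j` lies in `W[j]`. -/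
theorem jBar_mem_jPolyRing : jBar ∈ jPolyRing (unramInt A) :=
  Subring.subset_closure (Or.inr rfl)

theorem range_jEval : (jEval A).range = jPolyRing (unramInt A) := by
  refine le_antisymm ?_ ?_
  · rintro _ ⟨P, rfl⟩
    induction P using Polynomial.induction_on' with
    | add P Q hP hQ => rw [map_add]; exact add_mem hP hQ
    | monomial n c =>
      rw [← Polynomial.C_mul_X_pow_eq_monomial, map_mul, map_pow, jEval_C, jEval_X]
      exact mul_mem (C_mem_jPolyRing c.2) (pow_mem jBar_mem_jPolyRing n)
  · refine Subring.closure_le.2 ?_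
    rintro _ (⟨c, hc, rfl⟩ | rfl)
    · exact ⟨Polynomial.C ⟨c, hc⟩, by rw [jEval_C, algebraMap_eq_C]⟩
    · exact ⟨Polynomial.X, jEval_X⟩

/-- `W[j]` is a polynomial ring. -/
def jPolyEquiv (A : ValuationSubring Qbar) : (unramInt A)[X] ≃+* jPolyRing (unramInt A) :=
  (RingEquiv.ofBijective (jEval A).rangeRestrict
    ⟨fun _ _ h => jEval_injective (congrArg Subtype.val h),
      (jEval A).rangeRestrict_surjective⟩).trans (RingEquiv.subringCongr range_jEval)

theorem isNoetherianRing_jPolyRing (hA : A.LiesOverPrime q) (hq : q.Prime) :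
    IsNoetherianRing (jPolyRing (unramInt A)) := by
  have := isDiscreteValuationRing_unramInt hA hq
  exact isNoetherianRing_of_ringEquiv _ (jPolyEquiv A)

theorem isIntegrallyClosed_jPolyRing (hA : A.LiesOverPrime q) (hq : q.Prime) :
    IsIntegrallyClosed (jPolyRing (unramInt A)) := by
  classical
  have := isDiscreteValuationRing_unramInt hA hq
  let := UniqueFactorizationMonoid.strongNormalizationMonoid (α := (unramInt A)[X])
  let := UniqueFactorizationMonoid.toNormalizedGCDMonoid (unramInt A)[X]
  exact IsIntegrallyClosed.of_equiv (jPolyEquiv A)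

variable (M : ℕ) [NeZero M]

omit [NeZero M] in
/-- `W[j]` lies in every level field. -/
theorem jPolyRing_le_levelField :
    jPolyRing (unramInt A) ≤ (levelField (inertiaField A) M).toSubring := by
  refine Subring.closure_le.2 ?_
  rintro _ (⟨c, hc, rfl⟩ | rfl)
  · exact Subfield.subset_closure
      (Or.inl ⟨c, mem_inertiaField_iff.2 (mem_unramInt_iff.1 hc).2, rfl⟩)
  · exact Subfield.subset_closure (Or.inr ⟨jq, ⟨1, inferInstance, one_dvd M,
      (qExpand_one_apply jq).symm⟩, rfl⟩)

omit [NeZero M] in
/-- The level field lies in the function field over `ℚ̄`. -/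
theorem levelField_le_bar :
    levelField (inertiaField A) M ≤ (modularFunctionFieldBar M).toSubfield := by
  refine Subfield.closure_le.2 ?_
  rintro _ (⟨c, -, rfl⟩ | ⟨x, ⟨d, hd, hdM, rfl⟩, rfl⟩)
  · exact (modularFunctionFieldBar M).algebraMap_mem c
  · exact coeffEmb_mem_laurentBaseChange _ (jqd_mem_full M hdM)

/-- The generators are integral over `W[j]`. -/
theorem isIntegral_coeffEmb_jqd (d : ℕ) [NeZero d] :
    IsIntegral (jPolyRing (unramInt A)) (coeffEmb Qbar (qExpand ℚ d jq)) := by
  let ev : ℤ[X] →+* jPolyRing (unramInt A) :=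
    Polynomial.eval₂RingHom (Int.castRingHom _) ⟨jBar, jBar_mem_jPolyRing⟩
  have hcomp : (algebraMap (jPolyRing (unramInt A)) (LaurentSeries Qbar)).comp ev =
      (coeffEmb Qbar).comp evalAtJ := by
    refine Polynomial.ringHom_ext' (Subsingleton.elim _ _) ?_
    rw [RingHom.comp_apply, RingHom.comp_apply, evalAtJ_X]
    simp [ev, jBar]
    rfl
  refine ⟨(modularPolynomialData d).Φ.map ev, (modularPolynomialData d).monic.map _, ?_⟩
  rw [Polynomial.eval₂_map, hcomp, ← Polynomial.hom_eval₂]
  show coeffEmb Qbar ((modularPolynomialData d).Φ.eval₂ evalAtJ (jqN d)) = 0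
  rw [(modularPolynomialData d).eval_eq_zero, map_zero]

/-- The model, inside `ℚ̄((q))`. -/
def modelSubring (A : ValuationSubring Qbar) : Subring (LaurentSeries Qbar) :=
  (integralClosure (jPolyRing (unramInt A)) (LaurentSeries Qbar)).toSubring ⊓
    (levelField (inertiaField A) M).toSubring

variable {M}

omit [NeZero M] in
/-- The model consists of the elements of the level field integral over `W[j]`. -/
theorem mem_modelSubring_iff {x : LaurentSeries Qbar} :
    x ∈ modelSubring M A ↔
      IsIntegral (jPolyRing (unramInt A)) x ∧ x ∈ levelField (inertiaField A) M := Iff.rfl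

omit [NeZero M] in
/-- The two descriptions of the model agree. -/
theorem mem_model_iff_mem_modelSubring {x : modularFunctionFieldBar M} :
    x ∈ model A M ↔ (x : LaurentSeries Qbar) ∈ modelSubring M A := Iff.rfl

variable (M)

omit [NeZero M] in
/-- Constants in the inertia field lie in the level field. -/
theorem C_mem_levelField {c : Qbar} (hc : c ∈ inertiaField A) :
    HahnSeries.C c ∈ levelField (inertiaField A) M :=
  Subfield.subset_closure (Or.inl ⟨c, hc, algebraMap_eq_C c⟩)

/-- The model is finitely generated as a module over `W[j]`. -/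
theorem exists_finset_generators (hA : A.LiesOverPrime q) (hq : q.Prime) :
    ∃ s : Finset (LaurentSeries Qbar), (↑s ⊆ (modelSubring M A : Set (LaurentSeries Qbar))) ∧
      ∀ x ∈ modelSubring M A,
        x ∈ Submodule.span (jPolyRing (unramInt A)) (s : Set (LaurentSeries Qbar)) := by
  classical
  set O := jPolyRing (unramInt A) with hO
  have := isNoetherianRing_jPolyRing hA hq
  have := isIntegrallyClosed_jPolyRing hA hq
  let Kf := FractionRing O
  have hOinj : Function.Injective (algebraMap O (LaurentSeries Qbar)) := Subtype.val_injective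
  let : Algebra Kf (LaurentSeries Qbar) := (IsFractionRing.lift (K := Kf) hOinj).toAlgebra
  have : IsScalarTower O Kf (LaurentSeries Qbar) := IsScalarTower.of_algebraMap_eq fun x =>
    (IsFractionRing.lift_algebraMap (K := Kf) hOinj x).symm
  let T : Finset (LaurentSeries Qbar) := M.divisors.attach.image fun d : {x // x ∈ M.divisors} =>
    have : NeZero (d : ℕ) := ⟨(Nat.pos_of_mem_divisors d.2).ne'⟩
    coeffEmb Qbar (qExpand ℚ (d : ℕ) jq)
  have hTint : ∀ x ∈ T, IsIntegral O x := by
    intro x hx
    obtain ⟨d, -, rfl⟩ := Finset.mem_image.1 hx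
    have : NeZero (d : ℕ) := ⟨(Nat.pos_of_mem_divisors d.2).ne'⟩
    exact isIntegral_coeffEmb_jqd _
  let LF : IntermediateField Kf (LaurentSeries Qbar) :=
    IntermediateField.adjoin Kf (T : Set (LaurentSeries Qbar))
  have : FiniteDimensional Kf LF :=
    IntermediateField.finiteDimensional_adjoin fun x hx => (hTint x hx).tower_top
  -- `LF` is the level field
  have hle : ∀ x, x ∈ levelField (inertiaField A) M → x ∈ LF := by
    intro x hx
    refine (Subfield.closure_le (t := LF.toSubfield)).2 ?_ hx
    rintro _ (⟨c, hc, rfl⟩ | ⟨y, ⟨d, hd, hdM, rfl⟩, rfl⟩)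
    · obtain ⟨n, hn⟩ := exists_mul_pow_mem hA hq c
      have hmem : c * (q : Qbar) ^ n ∈ unramInt A := mem_unramInt_iff.2 ⟨hn, fun σ hσ => by
        rw [map_mul, map_pow, map_natCast, mem_inertiaField_iff.1 hc σ hσ]⟩
      have hO' : ∀ {a : Qbar}, a ∈ unramInt A → HahnSeries.C a ∈ LF := fun {a} ha => by
        have h : algebraMap O (LaurentSeries Qbar) ⟨_, C_mem_jPolyRing ha⟩ ∈ LF := by
          rw [IsScalarTower.algebraMap_apply O Kf (LaurentSeries Qbar)]
          exact LF.algebraMap_mem _
        exact h
      have hq0 : (q : Qbar) ^ n ≠ 0 := pow_ne_zero _ (Nat.cast_ne_zero.2 hq.ne_zero)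
      show algebraMap Qbar (LaurentSeries Qbar) c ∈ LF
      rw [algebraMap_eq_C, show c = c * (q : Qbar) ^ n * ((q : Qbar) ^ n)⁻¹ by
        rw [mul_assoc, mul_inv_cancel₀ hq0, mul_one], map_mul, map_inv₀]
      exact mul_mem (hO' hmem) (inv_mem (hO' (pow_mem (natCast_mem_unramInt A q) n)))
    · refine IntermediateField.subset_adjoin _ _ ?_
      exact Finset.mem_image.2 ⟨⟨d, Nat.mem_divisors.2 ⟨hdM, NeZero.ne M⟩⟩, Finset.mem_attach _ _,
        rfl⟩
  have hge : ∀ x, x ∈ LF → x ∈ levelField (inertiaField A) M := by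
    intro x hx
    have hK : ∀ a : Kf, algebraMap Kf (LaurentSeries Qbar) a ∈ levelField (inertiaField A) M := by
      intro a
      obtain ⟨r, s, -, rfl⟩ := IsFractionRing.div_surjective (A := O) a
      rw [map_div₀, ← IsScalarTower.algebraMap_apply, ← IsScalarTower.algebraMap_apply]
      exact div_mem (jPolyRing_le_levelField M r.2) (jPolyRing_le_levelField M s.2)
    induction hx using IntermediateField.adjoin_induction with
    | mem y hy =>
      obtain ⟨d, -, rfl⟩ := Finset.mem_image.1 hy
      have : NeZero (d : ℕ) := ⟨(Nat.pos_of_mem_divisors d.2).ne'⟩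
      exact Subfield.subset_closure (Or.inr ⟨_, ⟨_, ‹_›, (Nat.mem_divisors.1 d.2).1, rfl⟩, rfl⟩)
    | algebraMap a => exact hK a
    | add a b _ _ ha hb => exact add_mem ha hb
    | inv a _ ha => exact inv_mem ha
    | mul a b _ _ ha hb => exact mul_mem ha hb
  have : CharZero Kf :=
    ⟨fun a b h => by
      have := congrArg (algebraMap Kf (LaurentSeries Qbar)) h
      rw [map_natCast, map_natCast] at this
      exact charZero_laurentSeries_Qbar.cast_injective this⟩
  have : Algebra.IsSeparable Kf LF := inferInstance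
  have : IsScalarTower O LF (LaurentSeries Qbar) := IsScalarTower.of_algebraMap_eq fun _ => rfl
  have hfin : Module.Finite O (integralClosure O LF) :=
    IsIntegralClosure.finite O Kf LF (integralClosure O LF)
  obtain ⟨gens, hgens⟩ := hfin.fg_top
  refine ⟨gens.image fun g : integralClosure O LF => ((g : LF) : LaurentSeries Qbar), ?_, ?_⟩
  · intro x hx
    obtain ⟨g, -, rfl⟩ := Finset.mem_image.1 (Finset.mem_coe.1 hx)
    refine mem_modelSubring_iff.2 ⟨?_, hge _ (g : LF).2⟩
    exact IsIntegral.map (IsScalarTower.toAlgHom O LF (LaurentSeries Qbar)) g.2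
  · intro x hx
    obtain ⟨hint, hlev⟩ := mem_modelSubring_iff.1 hx
    let y : LF := ⟨x, hle x hlev⟩
    have hy : IsIntegral O y :=
      (isIntegral_algHom_iff (IsScalarTower.toAlgHom O LF (LaurentSeries Qbar))
        Subtype.val_injective (x := y)).1 hint
    have h := hgens ▸ (Submodule.mem_top : (⟨y, hy⟩ : integralClosure O LF) ∈ ⊤)
    rw [Finset.coe_image]
    have hmap := Submodule.apply_mem_span_image_of_mem_span
      (((IsScalarTower.toAlgHom O LF (LaurentSeries Qbar)).comp (integralClosure O LF).val).toLinearMap) h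
    exact hmap

/-- `W[j] → model`. -/
def toModelSubring (A : ValuationSubring Qbar) :
    jPolyRing (unramInt A) →+* modelSubring M A :=
  Subring.inclusion fun _ hx =>
    mem_modelSubring_iff.2 ⟨isIntegral_algebraMap (x := (⟨_, hx⟩ : jPolyRing (unramInt A))),
      jPolyRing_le_levelField M hx⟩

/-- The model is module-finite over `W[j]`. -/
theorem toModelSubring_finite (hA : A.LiesOverPrime q) (hq : q.Prime) :
    (toModelSubring M A).Finite := by
  classical
  obtain ⟨s, hs, hspan⟩ := exists_finset_generators M hA hq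
  let := (toModelSubring M A).toAlgebra
  refine RingHom.finite_algebraMap.2 ⟨⟨s.attach.image fun x => ⟨x.1, hs x.2⟩, ?_⟩⟩
  rw [eq_top_iff]
  intro x _
  let v : modelSubring M A →ₗ[jPolyRing (unramInt A)] LaurentSeries Qbar :=
    { toFun := Subtype.val
      map_add' := fun _ _ => rfl
      map_smul' := fun _ _ => rfl }
  have h1 : v x ∈ Submodule.map v (Submodule.span (jPolyRing (unramInt A))
      ((s.attach.image fun x => (⟨x.1, hs x.2⟩ : modelSubring M A)) :
        Set (modelSubring M A))) := by
    rw [Submodule.map_span]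
    refine Submodule.span_mono ?_ (hspan x x.2)
    intro z hz
    exact ⟨⟨z, hs hz⟩, Finset.mem_coe.2 (Finset.mem_image.2 ⟨⟨z, hz⟩, Finset.mem_attach _ _, rfl⟩),
      rfl⟩
  obtain ⟨y, hy, hyx⟩ := h1
  exact (Subtype.val_injective hyx : y = x) ▸ hy

/-- The model is noetherian. -/
theorem isNoetherianRing_modelSubring (hA : A.LiesOverPrime q) (hq : q.Prime) :
    IsNoetherianRing (modelSubring M A) := by
  have := isNoetherianRing_jPolyRing hA hq
  let := (toModelSubring M A).toAlgebra
  have : Module.Finite (jPolyRing (unramInt A)) (modelSubring M A) :=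
    RingHom.finite_algebraMap.1 (toModelSubring_finite M hA hq)
  exact IsNoetherianRing.of_finite (jPolyRing (unramInt A)) _

omit [NeZero M] in
/-- An element of the level field integral over the model belongs to it. -/
theorem mem_modelSubring_of_isIntegral {x : LaurentSeries Qbar}
    (hx : x ∈ levelField (inertiaField A) M) (hint : IsIntegral (modelSubring M A) x) :
    x ∈ modelSubring M A := by
  refine mem_modelSubring_iff.2 ⟨?_, hx⟩
  let IC := integralClosure (jPolyRing (unramInt A)) (LaurentSeries Qbar)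
  have h : IsIntegral IC x := by
    obtain ⟨P, hP, hPx⟩ := hint
    let ι : modelSubring M A →+* IC :=
      (Subring.inclusion (fun _ h => (mem_modelSubring_iff.1 h).1) :
        modelSubring M A →+* IC.toSubring)
    refine ⟨P.map ι, hP.map _, ?_⟩
    rw [Polynomial.eval₂_map]
    exact hPx
  exact isIntegral_trans x h

omit [NeZero M] in
/-- Every element of the level field is a quotient of model elements. -/
theorem exists_mul_eq_of_mem_levelField (hA : A.LiesOverPrime q) (hq : q.Prime)
    {x : LaurentSeries Qbar} (hx : x ∈ levelField (inertiaField A) M) :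
    ∃ a ∈ modelSubring M A, ∃ b ∈ modelSubring M A, b ≠ 0 ∧ x * b = a := by
  rw [levelField, Subfield.mem_closure_iff] at hx
  obtain ⟨y, hy, z, hz, rfl⟩ := hx
  have hgen : ∀ w, w ∈ Subring.closure (algebraMap Qbar (LaurentSeries Qbar) ''
      (inertiaField A : Set Qbar) ∪ coeffEmb Qbar '' divisorExpansions M) →
      ∃ n : ℕ, w * HahnSeries.C ((q : Qbar) ^ n) ∈ modelSubring M A := by
    have hC : ∀ {a : Qbar}, a ∈ unramInt A → HahnSeries.C a ∈ modelSubring M A := fun ha =>
      (toModelSubring M A ⟨_, C_mem_jPolyRing ha⟩).2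
    have hqn : ∀ n : ℕ, HahnSeries.C ((q : Qbar) ^ n) ∈ modelSubring M A := fun n =>
      hC (pow_mem (natCast_mem_unramInt A q) n)
    intro w hw
    induction hw using Subring.closure_induction with
    | mem w hw =>
      rcases hw with ⟨c, hc, rfl⟩ | ⟨v, ⟨d, hd, hdM, rfl⟩, rfl⟩
      · obtain ⟨n, hn⟩ := exists_mul_pow_mem hA hq c
        refine ⟨n, ?_⟩
        rw [algebraMap_eq_C, ← map_mul]
        exact hC (mem_unramInt_iff.2 ⟨hn, fun σ hσ => by
          rw [map_mul, map_pow, map_natCast, mem_inertiaField_iff.1 hc σ hσ]⟩)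
      · refine ⟨0, ?_⟩
        rw [pow_zero, map_one, mul_one]
        exact mem_modelSubring_iff.2 ⟨isIntegral_coeffEmb_jqd d,
          Subfield.subset_closure (Or.inr ⟨_, ⟨d, hd, hdM, rfl⟩, rfl⟩)⟩
    | zero => exact ⟨0, by simp⟩
    | one => exact ⟨0, by simp⟩
    | add a b _ _ ha hb =>
      obtain ⟨n, hn⟩ := ha
      obtain ⟨m, hm⟩ := hb
      refine ⟨n + m, ?_⟩
      rw [pow_add, map_mul, add_mul, ← mul_assoc, mul_left_comm b, ← mul_assoc]
      exact add_mem (mul_mem hn (hqn m))
        (by rw [mul_assoc]; exact mul_mem (hqn n) hm)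
    | neg a _ ha =>
      obtain ⟨n, hn⟩ := ha
      exact ⟨n, by rw [neg_mul]; exact neg_mem hn⟩
    | mul a b _ _ ha hb =>
      obtain ⟨n, hn⟩ := ha
      obtain ⟨m, hm⟩ := hb
      refine ⟨n + m, ?_⟩
      rw [pow_add, map_mul, mul_mul_mul_comm]
      exact mul_mem hn hm
  obtain ⟨n, hn⟩ := hgen y hy
  obtain ⟨m, hm⟩ := hgen z hz
  rcases eq_or_ne z 0 with rfl | hz0
  · exact ⟨0, zero_mem _, 1, one_mem _, one_ne_zero, by simp⟩
  have hC0 : ∀ k : ℕ, HahnSeries.C ((q : Qbar) ^ k) ≠ (0 : LaurentSeries Qbar) := fun k =>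
    HahnSeries.C_ne_zero (pow_ne_zero _ (Nat.cast_ne_zero.2 hq.ne_zero))
  have hCm : ∀ k : ℕ, HahnSeries.C ((q : Qbar) ^ k) ∈ modelSubring M A := fun k =>
    (toModelSubring M A ⟨_, C_mem_jPolyRing (pow_mem (natCast_mem_unramInt A q) k)⟩).2
  refine ⟨y * HahnSeries.C ((q : Qbar) ^ n) * HahnSeries.C ((q : Qbar) ^ m),
    mul_mem hn (hCm m), z * HahnSeries.C ((q : Qbar) ^ m) * HahnSeries.C ((q : Qbar) ^ n),
    mul_mem hm (hCm n), mul_ne_zero (mul_ne_zero hz0 (hC0 m)) (hC0 n), ?_⟩
  field_simp

omit [NeZero M] in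
/-- The model is integrally closed. -/
theorem isIntegrallyClosed_modelSubring :
    IsIntegrallyClosed (modelSubring M A) := by
  let Kf := FractionRing (modelSubring M A)
  have hinj : Function.Injective (modelSubring M A).subtype := Subtype.val_injective
  let emb : Kf →+* LaurentSeries Qbar := IsFractionRing.lift (K := Kf) hinj
  have hemb : ∀ x : modelSubring M A, emb (algebraMap _ Kf x) = (x : LaurentSeries Qbar) := fun x =>
    IsFractionRing.lift_algebraMap (K := Kf) hinj x
  refine (isIntegrallyClosed_iff Kf).2 fun {y} hy => ?_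
  obtain ⟨a, b, -, hab⟩ := IsFractionRing.div_surjective (A := modelSubring M A) y
  have hy' : emb y ∈ levelField (inertiaField A) M := by
    rw [← hab, map_div₀, hemb, hemb]
    exact div_mem (mem_modelSubring_iff.1 a.2).2 (mem_modelSubring_iff.1 b.2).2
  have hint : IsIntegral (modelSubring M A) (emb y) := by
    obtain ⟨P, hP, hPy⟩ := hy
    refine ⟨P, hP, ?_⟩
    have h := congrArg emb hPy
    rw [map_zero, Polynomial.hom_eval₂] at h
    rw [← h]
    congr 1
    exact RingHom.ext fun z => (hemb z).symm
  exact ⟨⟨_, mem_modelSubring_of_isIntegral M hy' hint⟩, emb.injective (by rw [hemb])⟩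

end Fermat.Agent.Carayol.Local
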