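import Fermat.Agent.GaloisBasics.Place
import Fermat.Agent.FFPlaces.Basic
import Mathlib.FieldTheory.Separable
import Mathlib.FieldTheory.IsAlgClosed.AlgebraicClosure
import Mathlib.RingTheory.Polynomial.Basic
import Mathlib.GroupTheory.Archimedean

/-!
# Constant extensions are unramified

If a subfield `S` of a field `F ⊇ ℚ̄` generates `F` together with the constants, then every place of
`F` over `ℚ̄` has a uniformiser in `S`.
-/

set_option autoImplicit false

noncomputable section

open Fermat.Agent.GaloisBasics (Qbar)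
open AlgebraicCurve
open scoped Polynomial

namespace Fermat.Agent.Carayol.Local

/-- In a reduced quotient `κ[X]/(m)` every element is divisible by its square. -/
theorem exists_eq_mul_sq_add {κ : Type*} [Field κ] {m : κ[X]} (hm : m.Separable) (a : κ[X]) :
    ∃ b c : κ[X], a = b * a ^ 2 + c * m := by
  classical
  obtain ⟨m', hm'⟩ := EuclideanDomain.gcd_dvd_right a m
  obtain ⟨a', ha'⟩ := EuclideanDomain.gcd_dvd_left a m
  have hd := EuclideanDomain.gcd_eq_gcd_ab a m
  set s := EuclideanDomain.gcdA a m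
  set t := EuclideanDomain.gcdB a m
  set d := EuclideanDomain.gcd a m
  obtain ⟨u, v, huv⟩ := (hm' ▸ hm : (d * m').Separable).isCoprime
  refine ⟨u * s, (u * t * d + v) * a', ?_⟩
  rw [hm'] at hd ⊢
  linear_combination (-a) * huv + u * a * hd + (v * m' + u * t * d * m') * ha'

variable {F : Type*} [Field F] [Algebra Qbar F] (v : Place Qbar F)

theorem ord_one_sub_eq_zero {x : F} (hx : x = 0 ∨ 0 < v.ord x) :
    1 - x ≠ 0 ∧ v.ord (1 - x) = 0 := by
  refine ⟨fun h => ?_, ?_⟩
  · rw [sub_eq_zero] at h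
    rcases hx with hx | hx
    · exact one_ne_zero (h.trans hx)
    · rw [← h, v.ord_one] at hx; exact lt_irrefl _ hx
  · rw [sub_eq_add_neg, FFPlaces.ord_add_eq_of_lt v one_ne_zero, v.ord_one]
    rw [v.ord_one, neg_eq_zero, FFPlaces.ord_neg]
    exact hx

/-- The ring of elements of `S` integral at `v`. -/
abbrev intPart (S : Subfield F) : Subring F := v.toValuationSubring.toSubring ⊓ S.toSubring

/-- An element of `S` of order `e`, zero if `e = 0`, generates the maximal ideal of the `v`-integers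
of `S` when all orders in `S` are multiples of `e`. -/
theorem isMaximal_span_intPart (S : Subfield F) {e : ℕ} (hdvd : ∀ x ∈ S, (e : ℤ) ∣ v.ord x)
    {π : F} (hπO : π ∈ intPart v S) (hπe : v.ord π = e) (hπ0 : π = 0 ↔ e = 0) :
    (Ideal.span {(⟨π, hπO⟩ : intPart v S)}).IsMaximal := by
  have hπS : π ∈ S := hπO.2
  let O := intPart v S
  have hOord : ∀ x ∈ O, 0 ≤ v.ord x := fun x hx => (FFPlaces.mem_iff v).1 hx.1
  set I : Ideal O := Ideal.span {(⟨π, hπO⟩ : O)} with hI
  -- elements of positive order lie in `I`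
  have hpos : ∀ x : O, 0 < v.ord (x : F) → x ∈ I := by
    intro x hx
    obtain ⟨k, hk⟩ := hdvd _ x.2.2
    have he : e ≠ 0 := fun he => by rw [hk, he] at hx; simp at hx
    have hπne : π ≠ 0 := fun h => he (hπ0.1 h)
    have hxne : (x : F) ≠ 0 := fun h => by rw [h, v.ord_zero] at hx; exact lt_irrefl _ hx
    have hle : (e : ℤ) ≤ v.ord (x : F) := Int.le_of_dvd hx (hk ▸ dvd_mul_right _ _)
    refine Ideal.mem_span_singleton.2 ⟨⟨(x : F) / π, (FFPlaces.mem_iff v).2 ?_,
      S.div_mem x.2.2 hπS⟩, Subtype.ext (mul_div_cancel₀ _ hπne).symm⟩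
    rw [FFPlaces.ord_div v hxne hπne, hπe]
    omega
  refine Ideal.isMaximal_iff.2 ⟨fun h => ?_, fun J x _ hxI hxJ => ?_⟩
  · obtain ⟨y, hy⟩ := Ideal.mem_span_singleton.1 h
    have hy' : (1 : F) = π * (y : F) := congrArg Subtype.val hy
    rcases eq_or_ne π 0 with h0 | h0
    · rw [h0, zero_mul] at hy'; exact one_ne_zero hy'
    · have hy0 : (y : F) ≠ 0 := fun h' => by rw [h', mul_zero] at hy'; exact one_ne_zero hy'
      have h1 := congrArg v.ord hy'
      rw [v.ord_one, v.ord_mul h0 hy0, hπe] at h1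
      have := hOord _ y.2
      have he : e ≠ 0 := fun he => h0 (hπ0.2 he)
      omega
  · have hx0 : (x : F) ≠ 0 := fun h => hxI (by rw [show x = 0 from Subtype.ext h]; exact zero_mem _)
    have hord : v.ord (x : F) = 0 :=
      le_antisymm (not_lt.1 fun h => hxI (hpos x h)) (hOord _ x.2)
    have hinv : (x : F)⁻¹ ∈ O :=
      ⟨(FFPlaces.mem_iff v).2 (by rw [v.ord_inv, hord, neg_zero]), S.inv_mem x.2.2⟩
    have : (1 : O) = x * ⟨_, hinv⟩ := Subtype.ext (mul_inv_cancel₀ hx0).symm
    rw [this]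
    exact Ideal.mul_mem_right _ _ hxJ

/-- If `θ` is a root of a polynomial separable modulo a uniformiser `π` of order `e` of `O`, every
element of `O[θ]` has order divisible by `e`. -/
theorem dvd_ord_eval₂ (O : Subring F) (hO : ∀ x ∈ O, x ∈ v.toValuationSubring) {e : ℕ} {π : F}
    (hπO : π ∈ O) (hπe : v.ord π = e) (hπ0 : π = 0 ↔ e = 0)
    (hI : (Ideal.span {(⟨π, hπO⟩ : O)}).IsMaximal) {θ : F} (hθ : θ ∈ v.toValuationSubring)
    {m : O[X]} (hmev : m.eval₂ O.subtype θ = 0)
    (hsep : (m.map (Ideal.Quotient.mk (Ideal.span {(⟨π, hπO⟩ : O)}))).Separable) (a : O[X]) :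
    (e : ℤ) ∣ v.ord (a.eval₂ O.subtype θ) := by
  set I : Ideal O := Ideal.span {(⟨π, hπO⟩ : O)}
  let : Field (O ⧸ I) := Ideal.Quotient.field I
  let ev : O[X] →+* F := Polynomial.eval₂RingHom O.subtype θ
  replace hmev : ev m = 0 := hmev
  have hevmem : ∀ a : O[X], ev a ∈ v.toValuationSubring := by
    intro a
    induction a using Polynomial.induction_on' with
    | add a b ha hb => rw [map_add]; exact add_mem ha hb
    | monomial n x =>
      simp only [ev, Polynomial.coe_eval₂RingHom, Polynomial.eval₂_monomial]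
      exact mul_mem (hO x x.2) (pow_mem hθ n)
  have hclaim : ∀ (k : ℕ) (a : O[X]), ev a ≠ 0 → v.ord (ev a) = k → e ∣ k := by
    intro k
    induction k using Nat.strong_induction_on with
    | _ k ih =>
      intro a ha hk
      rcases Nat.eq_zero_or_pos k with rfl | hkpos
      · exact dvd_zero e
      obtain ⟨b₀, c₀, hbc⟩ := exists_eq_mul_sq_add hsep (a.map (Ideal.Quotient.mk I))
      obtain ⟨b, rfl⟩ := Polynomial.map_surjective _ Ideal.Quotient.mk_surjective b₀
      obtain ⟨d, rfl⟩ := Polynomial.map_surjective _ Ideal.Quotient.mk_surjective c₀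
      obtain ⟨r, hr⟩ : Polynomial.C (⟨π, hπO⟩ : O) ∣ a - b * a ^ 2 - d * m := by
        rw [Polynomial.C_dvd_iff_dvd_coeff]
        intro i
        refine Ideal.mem_span_singleton.1 (Ideal.Quotient.eq_zero_iff_mem.1 ?_)
        rw [← Polynomial.coeff_map, Polynomial.map_sub, Polynomial.map_sub, Polynomial.map_mul,
          Polynomial.map_mul, Polynomial.map_pow, sub_sub, ← hbc, sub_self, Polynomial.coeff_zero]
      have hkey : ev a * (1 - ev b * ev a) = π * ev r := by
        have h := congrArg ev hr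
        rw [map_sub, map_sub, map_mul, map_mul, map_mul, map_pow, hmev,
          show ev (Polynomial.C (⟨π, hπO⟩ : O)) = π by simp [ev]] at h
        rw [← h]; ring
      have hba : ev b * ev a = 0 ∨ 0 < v.ord (ev b * ev a) := by
        rcases eq_or_ne (ev b) 0 with hb | hb
        · exact Or.inl (by rw [hb, zero_mul])
        · refine Or.inr ?_
          rw [v.ord_mul hb ha, hk]
          have := (FFPlaces.mem_iff v).1 (hevmem b)
          omega
      obtain ⟨hw0, hw⟩ := ord_one_sub_eq_zero v hba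
      have hne : π * ev r ≠ 0 := hkey ▸ mul_ne_zero ha hw0
      have h := congrArg v.ord hkey
      rw [v.ord_mul ha hw0, hw, v.ord_mul (left_ne_zero_of_mul hne) (right_ne_zero_of_mul hne),
        hπe, hk, add_zero] at h
      have hr0 := (FFPlaces.mem_iff v).1 (hevmem r)
      have he : e ≠ 0 := fun he => left_ne_zero_of_mul hne (hπ0.2 he)
      obtain ⟨k', hk'⟩ := Int.eq_ofNat_of_zero_le hr0
      have hsum : k = e + k' := by omega
      rw [hsum]
      exact dvd_add dvd_rfl (ih k' (by omega) r (right_ne_zero_of_mul hne) hk')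
  have hR : ∀ a : O[X], (e : ℤ) ∣ v.ord (ev a) := by
    intro a
    rcases eq_or_ne (ev a) 0 with h | h
    · rw [h, v.ord_zero]; exact dvd_zero _
    obtain ⟨k, hk⟩ := Int.eq_ofNat_of_zero_le ((FFPlaces.mem_iff v).1 (hevmem a))
    rw [hk]
    exact Int.natCast_dvd_natCast.2 (hclaim k a h hk)
  exact hR a

/-- Every element of `S[θ]` becomes a polynomial in `θ` over the `v`-integers of `S` after clearing
a denominator. -/
theorem exists_mul_eq_eval₂ (S : Subfield F) {θ y : F}
    (hy : y ∈ Subring.closure (insert θ (S : Set F))) :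
    ∃ t : intPart v S, (t : F) ≠ 0 ∧
      ∃ a : (intPart v S)[X], (t : F) * y = a.eval₂ (intPart v S).subtype θ := by
  classical
  let ev : (intPart v S)[X] →+* F := Polynomial.eval₂RingHom (intPart v S).subtype θ
  show ∃ t : intPart v S, (t : F) ≠ 0 ∧ ∃ a, (t : F) * y = ev a
  induction hy using Subring.closure_induction with
  | mem y hy =>
    rcases hy with rfl | hy
    · exact ⟨1, one_ne_zero, Polynomial.X, by simp [ev]⟩
    · rcases v.toValuationSubring.mem_or_inv_mem y with h | h
      · exact ⟨1, one_ne_zero, Polynomial.C ⟨y, h, hy⟩, by simp [ev]⟩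
      · rcases eq_or_ne y 0 with rfl | hy0
        · exact ⟨1, one_ne_zero, 0, by simp⟩
        · exact ⟨⟨y⁻¹, h, S.inv_mem hy⟩, inv_ne_zero hy0, 1, by simp [inv_mul_cancel₀ hy0]⟩
  | zero => exact ⟨1, one_ne_zero, 0, by simp⟩
  | one => exact ⟨1, one_ne_zero, 1, by simp⟩
  | add y z _ _ hy hz =>
    obtain ⟨t, ht, a, ha⟩ := hy
    obtain ⟨t', ht', a', ha'⟩ := hz
    refine ⟨t * t', mul_ne_zero ht ht', Polynomial.C t' * a + Polynomial.C t * a', ?_⟩
    rw [map_add, map_mul, map_mul, ← ha, ← ha']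
    simp only [ev, Polynomial.coe_eval₂RingHom, Polynomial.eval₂_C, Subring.subtype_apply,
      Subring.coe_mul]
    ring
  | neg y _ hy =>
    obtain ⟨t, ht, a, ha⟩ := hy
    exact ⟨t, ht, -a, by rw [map_neg, ← ha, mul_neg]⟩
  | mul y z _ _ hy hz =>
    obtain ⟨t, ht, a, ha⟩ := hy
    obtain ⟨t', ht', a', ha'⟩ := hz
    exact ⟨t * t', mul_ne_zero ht ht', a * a', by rw [map_mul, ← ha, ← ha', Subring.coe_mul]; ring⟩

/-- A constant is a root of a polynomial over the `v`-integers of `S` which is separable modulo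
every maximal ideal. -/
theorem exists_separable_root (S : Subfield F) (c : Qbar) :
    ∃ m : (intPart v S)[X], m.eval₂ (intPart v S).subtype (algebraMap Qbar F c) = 0 ∧
      ∀ (I : Ideal (intPart v S)) [I.IsMaximal], (m.map (Ideal.Quotient.mk I)).Separable := by
  let g : ℚ →+* intPart v S :=
    ((algebraMap Qbar F).comp (algebraMap ℚ Qbar)).codRestrict (intPart v S) fun r =>
      ⟨v.algebraMap_mem' _, by
        show algebraMap Qbar F (algebraMap ℚ Qbar r) ∈ S
        rw [eq_ratCast, map_ratCast]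
        exact SubfieldClass.ratCast_mem S r⟩
  refine ⟨(minpoly ℚ c).map g, ?_, fun I hI => ?_⟩
  · have h := congrArg (algebraMap Qbar F) (minpoly.aeval ℚ c)
    rw [map_zero, Polynomial.aeval_def, Polynomial.hom_eval₂] at h
    rw [Polynomial.eval₂_map]
    exact h
  · let : Field (intPart v S ⧸ I) := Ideal.Quotient.field I
    rw [Polynomial.map_map]
    exact ((minpoly.irreducible (Algebra.IsAlgebraic.isAlgebraic c).isIntegral).separable).map

/-- Adjoining one constant does not change the value group. -/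
theorem dvd_ord_of_mem_closure_insert (S : Subfield F) {e : ℕ}
    (hdvd : ∀ x ∈ S, (e : ℤ) ∣ v.ord x) (hπ : ∃ π ∈ S, v.ord π = e) (c : Qbar) :
    ∀ x ∈ Subfield.closure (insert (algebraMap Qbar F c) (S : Set F)), (e : ℤ) ∣ v.ord x := by
  classical
  obtain ⟨π, hπS, hπe, hπ0⟩ : ∃ π ∈ S, v.ord π = e ∧ (π = 0 ↔ e = 0) := by
    rcases eq_or_ne e 0 with rfl | he
    · exact ⟨0, S.zero_mem, by simp, by simp⟩
    · obtain ⟨π, h1, h2⟩ := hπ
      refine ⟨π, h1, h2, ⟨fun h => ?_, fun h => absurd h he⟩⟩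
      rw [h, v.ord_zero] at h2
      exact_mod_cast h2.symm
  have hπO : π ∈ intPart v S := ⟨(FFPlaces.mem_iff v).2 (by rw [hπe]; positivity), hπS⟩
  have hmax := isMaximal_span_intPart v S hdvd hπO hπe hπ0
  obtain ⟨m, hmev, hsep⟩ := exists_separable_root v S c
  have hsub : ∀ y, y ∈ Subring.closure (insert (algebraMap Qbar F c) (S : Set F)) →
      (e : ℤ) ∣ v.ord y := by
    intro y hy
    rcases eq_or_ne y 0 with rfl | hy0
    · rw [v.ord_zero]; exact dvd_zero _
    obtain ⟨t, ht, a, ha⟩ := exists_mul_eq_eval₂ v S hy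
    have h := dvd_ord_eval₂ v (intPart v S) (fun x hx => hx.1) hπO hπe hπ0 hmax
      (v.algebraMap_mem' c) hmev (hsep _) a
    rw [← ha, v.ord_mul ht hy0] at h
    exact (dvd_add_right (hdvd _ t.2.2)).1 h
  intro x hx
  obtain ⟨y, hy, z, hz, rfl⟩ := Subfield.mem_closure_iff.1 hx
  rcases eq_or_ne y 0 with rfl | hy0
  · simp
  rcases eq_or_ne z 0 with rfl | hz0
  · simp
  rw [FFPlaces.ord_div v hy0 hz0]
  exact dvd_sub (hsub y hy) (hsub z hz)

/-- Every place has a uniformiser in a subfield generating `F` with the constants. -/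
theorem exists_ord_eq_one_of_gen (S : Subfield F)
    (hgen : Subfield.closure ((S : Set F) ∪ Set.range (algebraMap Qbar F)) = ⊤) :
    ∃ π ∈ S, π ≠ 0 ∧ v.ord π = 1 := by
  classical
  let H : AddSubgroup ℤ :=
    { carrier := {i | ∃ x ∈ S, x ≠ 0 ∧ v.ord x = i}
      zero_mem' := ⟨1, S.one_mem, one_ne_zero, v.ord_one⟩
      add_mem' := by
        rintro _ _ ⟨x, hx, hx0, rfl⟩ ⟨y, hy, hy0, rfl⟩
        exact ⟨x * y, S.mul_mem hx hy, mul_ne_zero hx0 hy0, v.ord_mul hx0 hy0⟩
      neg_mem' := by
        rintro _ ⟨x, hx, hx0, rfl⟩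
        exact ⟨x⁻¹, S.inv_mem hx, inv_ne_zero hx0, v.ord_inv x⟩ }
  obtain ⟨g, hg⟩ := Int.subgroup_cyclic H
  set e := g.natAbs with he
  obtain ⟨π, hπS, hπ0, hπe⟩ : ∃ π ∈ S, π ≠ 0 ∧ v.ord π = (e : ℤ) := by
    show (e : ℤ) ∈ H
    have hgH : g ∈ H := hg ▸ AddSubgroup.subset_closure rfl
    rcases Int.natAbs_eq g with h | h
    · rwa [← h]
    · have := H.neg_mem hgH
      rw [h, neg_neg] at this
      exact this
  have hdvd : ∀ x ∈ S, (e : ℤ) ∣ v.ord x := by
    intro x hx
    rcases eq_or_ne x 0 with rfl | hx0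
    · simp
    have hm : v.ord x ∈ H := ⟨x, hx, hx0, rfl⟩
    rw [hg, AddSubgroup.mem_closure_singleton] at hm
    obtain ⟨n, hn⟩ := hm
    rw [← hn, smul_eq_mul]
    exact Int.natAbs_dvd.2 (dvd_mul_left g n)
  have hT : ∀ T : Finset Qbar, ∀ x ∈ Subfield.closure ((S : Set F) ∪ algebraMap Qbar F '' T),
      (e : ℤ) ∣ v.ord x := by
    intro T
    induction T using Finset.induction_on with
    | empty =>
      intro x hx
      rw [Finset.coe_empty, Set.image_empty, Set.union_empty, Subfield.closure_eq] at hx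
      exact hdvd x hx
    | insert c T hc ih =>
      intro x hx
      refine dvd_ord_of_mem_closure_insert v
        (Subfield.closure ((S : Set F) ∪ algebraMap Qbar F '' T)) ih
        ⟨π, Subfield.subset_closure (Or.inl hπS), hπe⟩ c x ?_
      refine Subfield.closure_mono ?_ hx
      rintro y (hy | ⟨d, hd, rfl⟩)
      · exact Or.inr (Subfield.subset_closure (Or.inl hy))
      · rcases Finset.mem_insert.1 hd with rfl | hd
        · exact Or.inl rfl
        · exact Or.inr (Subfield.subset_closure (Or.inr ⟨d, hd, rfl⟩))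
  have hall : ∀ x : F, ∃ T : Finset Qbar,
      x ∈ Subfield.closure ((S : Set F) ∪ algebraMap Qbar F '' T) := by
    intro x
    have hx : x ∈ Subfield.closure ((S : Set F) ∪ Set.range (algebraMap Qbar F)) := hgen ▸ trivial
    induction hx using Subfield.closure_induction with
    | mem y hy =>
      rcases hy with hy | ⟨c, rfl⟩
      · exact ⟨∅, Subfield.subset_closure (Or.inl hy)⟩
      · exact ⟨{c}, Subfield.subset_closure (Or.inr ⟨c, by simp, rfl⟩)⟩
    | one => exact ⟨∅, one_mem _⟩
    | add y z _ _ hy hz =>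
      obtain ⟨T, hT⟩ := hy
      obtain ⟨T', hT'⟩ := hz
      exact ⟨T ∪ T', add_mem
        (Subfield.closure_mono (Set.union_subset_union_right _
          (Set.image_mono (Finset.coe_subset.2 Finset.subset_union_left))) hT)
        (Subfield.closure_mono (Set.union_subset_union_right _
          (Set.image_mono (Finset.coe_subset.2 Finset.subset_union_right))) hT')⟩
    | neg y _ hy =>
      obtain ⟨T, hT⟩ := hy
      exact ⟨T, neg_mem hT⟩
    | inv y _ hy =>
      obtain ⟨T, hT⟩ := hy
      exact ⟨T, inv_mem hT⟩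
    | mul y z _ _ hy hz =>
      obtain ⟨T, hT⟩ := hy
      obtain ⟨T', hT'⟩ := hz
      exact ⟨T ∪ T', mul_mem
        (Subfield.closure_mono (Set.union_subset_union_right _
          (Set.image_mono (Finset.coe_subset.2 Finset.subset_union_left))) hT)
        (Subfield.closure_mono (Set.union_subset_union_right _
          (Set.image_mono (Finset.coe_subset.2 Finset.subset_union_right))) hT')⟩
  obtain ⟨σ, hσ0, hσ⟩ := FFPlaces.exists_uniformizer v
  obtain ⟨T, hσT⟩ := hall σ
  have h1 := hT T σ hσT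
  rw [hσ] at h1
  refine ⟨π, hπS, hπ0, ?_⟩
  rw [hπe]
  exact_mod_cast Int.eq_one_of_dvd_one (by positivity) h1

end Fermat.Agent.Carayol.Local
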