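import Fermat.Agent.Carayol.Local.Level
import Fermat.Agent.Carayol.Local.ConstExt
import Fermat.Agent.Hecke.Inputs
import Fermat.Agent.FunctionField.PlaceExists
import Mathlib.RingTheory.DiscreteValuationRing.TFAE
import Mathlib.RingTheory.Ideal.GoingUp
import Mathlib.RingTheory.Localization.Ideal
import Mathlib.RingTheory.Localization.AtPrime.Basic
import Mathlib.RingTheory.Localization.Submodule
import Mathlib.RingTheory.PolynomialAlgebra
import Mathlib.RingTheory.PrincipalIdealDomain
import Mathlib.RingTheory.Valuation.LocalSubring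

/-!
# Functions with divisible divisor at the primes of the model not containing `q`

At a prime of the model not containing `q`, an element of the level field whose orders at the places
where `j` is finite are divisible by `n` is a unit times an `n`-th power: the primes of the model
are centres of such places.
-/

set_option autoImplicit false

noncomputable section

open Fermat.Agent.GaloisBasics (Qbar)
open ModularCurve AlgebraicCurve
open scoped Polynomial nonZeroDivisors

namespace Fermat.Agent.Carayol.Local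

variable {A : ValuationSubring Qbar} {q : ℕ}

attribute [local instance] Polynomial.algebra Polynomial.isLocalization in
/-- Nested nonzero primes of `W[X]` not containing `q` are equal. -/
theorem polynomial_prime_eq_of_le (hA : A.LiesOverPrime q) (hq : q.Prime)
    {P' P : Ideal (unramInt A)[X]} [hP' : P'.IsPrime] [hP : P.IsPrime] (hle : P' ≤ P)
    (hne : P' ≠ ⊥) (hqP : (q : (unramInt A)[X]) ∉ P) : P' = P := by
  let K := FractionRing (unramInt A)
  let M := (nonZeroDivisors (unramInt A)).map (Polynomial.C : (unramInt A) →+* (unramInt A)[X])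
  have : IsLocalization M K[X] := Polynomial.isLocalization (nonZeroDivisors (unramInt A)) K
  have hd : Disjoint (M : Set (unramInt A)[X]) ↑P := by
    rw [Set.disjoint_left]
    rintro _ ⟨c, hc, rfl⟩ hcP
    obtain ⟨k, u, rfl⟩ := exists_eq_pow_mul hA hq (nonZeroDivisors.ne_zero hc)
    rw [SetLike.mem_coe, map_mul, map_pow, map_natCast] at hcP
    rcases hP.mem_or_mem hcP with h | h
    · exact hqP (hP.mem_of_pow_mem _ h)
    · exact hP.ne_top (Ideal.eq_top_of_isUnit_mem _ h (Polynomial.isUnit_C.2 u.isUnit))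
  have hd' : Disjoint (M : Set (unramInt A)[X]) ↑P' :=
    hd.mono_right (SetLike.coe_subset_coe.2 hle)
  have e' := IsLocalization.under_map_of_isPrime_disjoint M K[X] hP' hd'
  have e := IsLocalization.under_map_of_isPrime_disjoint M K[X] hP hd
  have h1 : (Ideal.map (algebraMap (unramInt A)[X] K[X]) P').IsPrime :=
    IsLocalization.isPrime_of_isPrime_disjoint M K[X] P' hP' hd'
  have h2 : (Ideal.map (algebraMap (unramInt A)[X] K[X]) P).IsPrime :=
    IsLocalization.isPrime_of_isPrime_disjoint M K[X] P hP hd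
  have hne' : Ideal.map (algebraMap (unramInt A)[X] K[X]) P' ≠ ⊥ := fun h => by
    refine hne (le_bot_iff.1 fun x hx => ?_)
    have hinj : Function.Injective (algebraMap (unramInt A)[X] K[X]) :=
      Polynomial.map_injective _ (IsFractionRing.injective (unramInt A) K)
    have hx0 : algebraMap (unramInt A)[X] K[X] x ∈ (⊥ : Ideal K[X]) :=
      h ▸ Ideal.mem_map_of_mem _ hx
    exact Ideal.mem_bot.2 (hinj (by rw [Ideal.mem_bot.1 hx0, map_zero]))
  have : IsPrincipalIdealRing K[X] := @EuclideanDomain.to_principal_ideal_domain K[X] (inferInstance : EuclideanDomain K[X])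
  have heq := (@IsPrime.to_maximal_ideal _ _ _ _ _ h1 hne').eq_of_le h2.ne_top (Ideal.map_mono hle)
  rw [← e', ← e, heq]

variable (M : ℕ) [NeZero M]

/-- Nested nonzero primes of the model not containing `q` are equal. -/
theorem model_prime_eq_of_le (hA : A.LiesOverPrime q) (hq : q.Prime)
    {p' p : Ideal (modelAlg M A)} [hp' : p'.IsPrime] [hp : p.IsPrime] (hle : p' ≤ p)
    (hne : p' ≠ ⊥) (hqp : (q : modelAlg M A) ∉ p) : p' = p := by
  let := (jAlgHom M A).toRingHom.toAlgebra
  have : Algebra.IsIntegral (unramInt A)[X] (modelAlg M A) :=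
    ⟨(jAlgHom_finite M hA hq).to_isIntegral⟩
  by_contra hne'
  have hlt := Ideal.IsIntegral.comap_lt_comap (R := (unramInt A)[X]) (lt_of_le_of_ne hle hne')
  refine hlt.ne (polynomial_prime_eq_of_le hA hq (Ideal.comap_mono hle)
    (Ideal.IsIntegral.comap_ne_bot (unramInt A)[X] hne) ?_)
  rw [Ideal.mem_comap, map_natCast]
  exact hqp

/-- In a Noetherian normal domain divisibility is total at a prime over no other nonzero prime. -/
theorem exists_dvd_or_dvd_of_prime_eq {R : Type*} [CommRing R] [IsDomain R] [IsNoetherianRing R]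
    [IsIntegrallyClosed R] (p : Ideal R) [p.IsPrime]
    (h : ∀ P : Ideal R, P.IsPrime → P ≠ ⊥ → P ≤ p → P = p) (a b : R) :
    ∃ c s : R, s ∉ p ∧ (s * b = a * c ∨ s * a = b * c) := by
  let L := Localization.AtPrime p
  have : IsNoetherianRing L := IsLocalization.isNoetherianRing p.primeCompl L inferInstance
  have : IsIntegrallyClosed L :=
    isIntegrallyClosed_of_isLocalization L p.primeCompl p.primeCompl_le_nonZeroDivisors
  have hprimes : ∀ P : Ideal L, P ≠ ⊥ → P.IsPrime → P = IsLocalRing.maximalIdeal L := by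
    intro P hP0 hP
    obtain ⟨hPp, hPd⟩ := (IsLocalization.isPrime_iff_isPrime_disjoint p.primeCompl L P).1 hP
    have hle : P.under R ≤ p := fun x hx => by
      by_contra hxp
      exact Set.disjoint_left.1 hPd hxp hx
    have hne : P.under R ≠ ⊥ := fun h => hP0 (by
      rw [← IsLocalization.map_under p.primeCompl L P, h, Ideal.map_bot])
    rw [← IsLocalization.map_under p.primeCompl L P, h _ hPp hne hle]
    exact IsLocalization.AtPrime.map_eq_maximalIdeal p L
  have hval : ValuationRing L :=
    have h4 : IsIntegrallyClosed L ∧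
        ∀ P : Ideal L, P ≠ ⊥ → P.IsPrime → P = IsLocalRing.maximalIdeal L := ⟨inferInstance, hprimes⟩
    ((tfae_of_isNoetherianRing_of_isLocalRing_of_isDomain L).out 3 1).1 h4
  have hinj : Function.Injective (algebraMap R L) :=
    IsLocalization.injective L p.primeCompl_le_nonZeroDivisors
  have key : ∀ a b : R, algebraMap _ L a ∣ algebraMap _ L b →
      ∃ c s : R, s ∉ p ∧ s * b = a * c := by
    rintro a b ⟨x, hx⟩
    obtain ⟨⟨c, s⟩, hcs⟩ := IsLocalization.surj p.primeCompl x
    refine ⟨c, s, s.2, hinj ?_⟩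
    rw [map_mul, map_mul, hx, mul_comm, mul_assoc, hcs]
  rcases ValuationRing.dvd_total (h := hval.toPreValuationRing) (algebraMap _ L a)
      (algebraMap _ L b) with hd | hd
  · obtain ⟨c, s, hs, e⟩ := key a b hd
    exact ⟨c, s, hs, Or.inl e⟩
  · obtain ⟨c, s, hs, e⟩ := key b a hd
    exact ⟨c, s, hs, Or.inr e⟩

/-- Divisibility is total at a prime of the model not containing `q`. -/
theorem exists_dvd_or_dvd (hA : A.LiesOverPrime q) (hq : q.Prime) (p : Ideal (modelAlg M A))
    [hp : p.IsPrime] (hqp : (q : modelAlg M A) ∉ p) (a b : modelAlg M A) :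
    ∃ c s : modelAlg M A, s ∉ p ∧ (s * b = a * c ∨ s * a = b * c) :=
  have := isNoetherianRing_modelAlg M hA hq
  have := isIntegrallyClosed_modelAlg (A := A) M
  exists_dvd_or_dvd_of_prime_eq p
    (fun _ hP h0 hle => model_prime_eq_of_le M hA hq (hp' := hP) hle h0 hqp) a b

/-- The level field inside the function field over `ℚ̄`. -/
def levelToBar (A : ValuationSubring Qbar) :
    levelField (inertiaField A) M →+* modularFunctionFieldBar M where
  toFun x := ⟨x.1, levelField_le_bar M x.2⟩
  map_one' := rfl
  map_mul' _ _ := rfl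
  map_zero' := rfl
  map_add' _ _ := rfl

omit [NeZero M] in
/-- `levelToBar` does not change the underlying series. -/
theorem coe_levelToBar (x : levelField (inertiaField A) M) :
    ((levelToBar M A x : modularFunctionFieldBar M) : LaurentSeries Qbar) = x := rfl

omit [NeZero M] in
/-- The level field and the constants generate the function field. -/
theorem closure_levelToBar_union :
    Subfield.closure (((levelToBar M A).fieldRange : Set (modularFunctionFieldBar M)) ∪
      Set.range (algebraMap Qbar (modularFunctionFieldBar M))) = ⊤ := by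
  set T := Subfield.closure (((levelToBar M A).fieldRange : Set (modularFunctionFieldBar M)) ∪
      Set.range (algebraMap Qbar (modularFunctionFieldBar M))) with hT
  let Y := T.map (modularFunctionFieldBar M).toSubfield.subtype
  have hC : ∀ c : Qbar, algebraMap Qbar (LaurentSeries Qbar) c ∈ Y := fun c =>
    ⟨algebraMap Qbar (modularFunctionFieldBar M) c, Subfield.subset_closure (Or.inr ⟨c, rfl⟩), rfl⟩
  have hfull : ∀ x ∈ modularFunctionFieldFull M, coeffEmb Qbar x ∈ Y := by
    intro x hx
    induction hx using IntermediateField.adjoin_induction with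
    | mem y hy =>
      exact ⟨levelToBar M A ⟨coeffEmb Qbar y, Subfield.subset_closure (Or.inr ⟨y, hy, rfl⟩)⟩,
        Subfield.subset_closure (Or.inl ⟨_, rfl⟩), rfl⟩
    | algebraMap r =>
      rw [eq_ratCast, map_ratCast]
      exact SubfieldClass.ratCast_mem Y r
    | add a b _ _ ha hb => rw [map_add]; exact add_mem ha hb
    | inv a _ ha => rw [map_inv₀]; exact inv_mem ha
    | mul a b _ _ ha hb => rw [map_mul]; exact mul_mem ha hb
  have hbar : ∀ x ∈ modularFunctionFieldBar M, x ∈ Y := by
    intro x hx
    induction hx using IntermediateField.adjoin_induction with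
    | mem y hy => obtain ⟨z, hz, rfl⟩ := hy; exact hfull z hz
    | algebraMap c => exact hC c
    | add a b _ _ ha hb => exact add_mem ha hb
    | inv a _ ha => exact inv_mem ha
    | mul a b _ _ ha hb => exact mul_mem ha hb
  refine eq_top_iff.2 fun x _ => ?_
  obtain ⟨y, hy, hyx⟩ := hbar x x.2
  exact (Subtype.val_injective hyx : y = x) ▸ hy

omit [NeZero M] in
/-- Every place of the function field has a uniformiser in the level field. -/
theorem exists_level_uniformizer (v : Place Qbar (modularFunctionFieldBar M)) :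
    ∃ π : levelField (inertiaField A) M, π ≠ 0 ∧ v.ord (levelToBar M A π) = 1 := by
  obtain ⟨_, ⟨π, rfl⟩, hπ0, hπ⟩ :=
    exists_ord_eq_one_of_gen v (levelToBar M A).fieldRange (closure_levelToBar_union M)
  exact ⟨π, fun h => hπ0 (by rw [h, map_zero]), hπ⟩

/-- A place of the function field centred at a given prime of the model not containing `q`. -/
theorem exists_place_center (hA : A.LiesOverPrime q) (hq : q.Prime) (p : Ideal (modelAlg M A))
    [hp : p.IsPrime] (hne : p ≠ ⊥) (hqp : (q : modelAlg M A) ∉ p) :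
    ∃ v : Place Qbar (modularFunctionFieldBar M), ∀ b : modelAlg M A, b ≠ 0 →
      0 ≤ v.ord (levelToBar M A b) ∧ (b ∈ p ↔ 0 < v.ord (levelToBar M A b)) := by
  classical
  let ψ : modelAlg M A →+* modularFunctionFieldBar M :=
    (levelToBar M A).comp (modelAlg M A).val.toRingHom
  have hψ : Function.Injective ψ := (levelToBar M A).injective.comp Subtype.val_injective
  let e : modelAlg M A ≃+* ψ.range :=
    RingEquiv.ofBijective ψ.rangeRestrict
      ⟨fun a b h => hψ (congrArg Subtype.val h), ψ.rangeRestrict_surjective⟩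
  let P : Ideal ψ.range := p.comap e.symm.toRingHom
  have hP : P.IsPrime := Ideal.comap_isPrime _ _
  obtain ⟨B, hB⟩ := (LocalSubring.ofPrime ψ.range P).exists_le_valuationSubring
  have hle : ∀ b, ψ b ∈ B := fun b =>
    hB.1 (LocalSubring.le_ofPrime _ _ ⟨b, rfl⟩)
  have hunit : ∀ b, (IsUnit (⟨ψ b, hle b⟩ : B) ↔ b ∉ p) := by
    intro b
    have hbl : ψ b ∈ (LocalSubring.ofPrime ψ.range P).toSubring :=
      LocalSubring.le_ofPrime _ _ ⟨b, rfl⟩
    have h3 : IsUnit (algebraMap ψ.range (LocalSubring.ofPrime ψ.range P).toSubring ⟨ψ b, b, rfl⟩)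
        ↔ b ∉ p := by
      rw [IsLocalization.AtPrime.isUnit_to_map_iff _ P]
      show e.symm ⟨ψ b, b, rfl⟩ ∉ p ↔ b ∉ p
      rw [show e.symm ⟨ψ b, b, rfl⟩ = b from e.symm_apply_apply b]
    rw [← h3]
    refine ⟨fun h => ?_, fun h => ?_⟩
    · exact hB.2.1 ⟨ψ b, hbl⟩ h
    · exact h.map (Subring.inclusion hB.1)
  have hrat : ∀ r : ℚ, algebraMap ℚ (modularFunctionFieldBar M) r ∈ B := by
    have hint : ∀ i : ℤ, (i : modularFunctionFieldBar M) ∈ B := fun i => intCast_mem _ i
    have hden : ∀ k : ℕ, k ≠ 0 → ((k : modularFunctionFieldBar M))⁻¹ ∈ B := by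
      intro k hk
      have hkp : (k : modelAlg M A) ∉ p := by
        intro h
        have hk0 : (k : unramInt A) ≠ 0 := fun h0 =>
          hk (by exact_mod_cast (congrArg Subtype.val h0 : ((k : unramInt A) : Qbar) = 0))
        obtain ⟨i, u, hiu⟩ := exists_eq_pow_mul hA hq hk0
        rw [← map_natCast (algebraMap (unramInt A) (modelAlg M A)), hiu, map_mul, map_pow,
          map_natCast] at h
        rcases hp.mem_or_mem h with h | h
        · exact hqp (hp.mem_of_pow_mem _ h)
        · exact hp.ne_top (Ideal.eq_top_of_isUnit_mem _ h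
            ((u.isUnit).map (algebraMap (unramInt A) (modelAlg M A))))
      obtain ⟨y, hy⟩ := isUnit_iff_exists_inv.1 ((hunit _).2 hkp)
      have h1 : (k : modularFunctionFieldBar M) * (y : modularFunctionFieldBar M) = 1 := by
        have := congrArg Subtype.val hy
        simpa using this
      rw [inv_eq_of_mul_eq_one_right h1]
      exact y.2
    intro r
    rw [eq_ratCast, Rat.cast_def, div_eq_mul_inv]
    exact mul_mem (hint _) (hden _ r.den_ne_zero)
  have hK : ∀ c : Qbar, algebraMap Qbar (modularFunctionFieldBar M) c ∈ B := fun c =>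
    FunctionField.mem_valuationSubring_of_isAlgebraic B hrat
      ((Algebra.IsAlgebraic.isAlgebraic c).isIntegral.map
        (IsScalarTower.toAlgHom ℚ Qbar (modularFunctionFieldBar M))).isAlgebraic
  obtain ⟨b₀, hb₀p, hb₀⟩ := Submodule.exists_mem_ne_zero_of_ne_bot hne
  have hBtop : B ≠ ⊤ := by
    rintro rfl
    refine (hunit b₀).1 ?_ hb₀p
    refine isUnit_iff_exists_inv.mpr ⟨⟨(ψ b₀)⁻¹, ValuationSubring.mem_top _⟩, ?_⟩
    exact Subtype.ext (mul_inv_cancel₀ (fun h => hb₀ (hψ (h.trans (map_zero ψ).symm))))
  refine ⟨FunctionField.placeOfValuationSubring B hK hBtop, fun b hb => ?_⟩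
  set v := FunctionField.placeOfValuationSubring B hK hBtop
  have h0 : ψ b ≠ 0 := fun h => hb (hψ (h.trans (map_zero ψ).symm))
  have hnn : 0 ≤ v.ord (ψ b) := (FFPlaces.mem_iff v).1 (hle b)
  refine ⟨hnn, ?_⟩
  have h1 : IsUnit (⟨ψ b, hle b⟩ : B) ↔ v.ord (ψ b) = 0 := by
    refine (v.adicValuation_coe_eq_one_iff (⟨ψ b, hle b⟩ : v.toValuationSubring)).symm.trans ?_
    show v.adicValuation (ψ b) = 1 ↔ _
    rw [FFPlaces.adicValuation_eq_exp v h0, ← WithZero.exp_zero, WithZero.exp_inj]
    omega
  rw [← not_iff_not, ← hunit b, h1]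
  show v.ord (ψ b) = 0 ↔ ¬ 0 < v.ord (ψ b)
  omega

/-- At a prime of the model not containing `q`, a function whose orders at the places where
`j` is finite are divisible by `n` is a unit times an `n`-th power. -/
theorem exists_mul_eq_mul_pow_of_finite (hA : A.LiesOverPrime q) (hq : q.Prime) {n : ℕ} (hn : 0 < n)
    (f : levelField (inertiaField A) M)
    (hf : ∀ v : Place Qbar (modularFunctionFieldBar M),
      0 ≤ v.ord (levelToBar M A (jModel M A : levelField (inertiaField A) M)) →
        (n : ℤ) ∣ v.ord (levelToBar M A f))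
    (p : Ideal (modelAlg M A)) [hp : p.IsPrime] (hqp : (q : modelAlg M A) ∉ p) :
    ∃ (g : levelField (inertiaField A) M) (s t : modelAlg M A), s ∉ p ∧ t ∉ p ∧
      (s : levelField (inertiaField A) M) * f = t * g ^ n := by
  rcases eq_or_ne f 0 with rfl | hf0
  · exact ⟨0, 1, 1, hp.one_notMem, hp.one_notMem, by simp [zero_pow hn.ne']⟩
  rcases eq_or_ne p ⊥ with rfl | hne
  · obtain ⟨b, hb0, hb⟩ := exists_mul_mem_modelAlg M hA hq f
    exact ⟨1, b, ⟨_, hb⟩, fun h => hb0 (Ideal.mem_bot.1 h),
      fun h => mul_ne_zero (fun h' => hb0 (Subtype.ext h')) hf0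
        (congrArg Subtype.val (Ideal.mem_bot.1 h)),
      by simp⟩
  obtain ⟨v, hv⟩ := exists_place_center M hA hq p hne hqp
  obtain ⟨π, hπ0, hπ⟩ := exists_level_uniformizer (A := A) M v
  obtain ⟨k, hk⟩ := hf v (by
    by_cases h : jModel M A = 0
    · simp only [h, ZeroMemClass.coe_zero, map_zero, Place.ord_zero, le_refl]
    · exact (hv _ h).1)
  set g := π ^ k with hg
  have hg0 : g ≠ 0 := zpow_ne_zero _ hπ0
  set h := f / g ^ n with hh
  have hh0 : h ≠ 0 := div_ne_zero hf0 (pow_ne_zero _ hg0)
  have hι : ∀ {x : levelField (inertiaField A) M}, x ≠ 0 → levelToBar M A x ≠ 0 :=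
    fun {x} hx h => hx ((levelToBar M A).injective (h.trans (map_zero _).symm))
  have hord : v.ord (levelToBar M A h) = 0 := by
    rw [hh, map_div₀, map_pow, hg, map_zpow₀, FFPlaces.ord_div v (hι hf0)
      (pow_ne_zero _ (zpow_ne_zero _ (hι hπ0))), FFPlaces.ord_pow, v.ord_zpow, hπ, hk]
    ring
  have hfgh : f = h * g ^ n := (div_mul_cancel₀ _ (pow_ne_zero _ hg0)).symm
  obtain ⟨b, hb0, hb⟩ := exists_mul_mem_modelAlg M hA hq h
  set a : modelAlg M A := ⟨_, hb⟩ with ha
  have hb0' : (b : levelField (inertiaField A) M) ≠ 0 := fun h' => hb0 (Subtype.ext h')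
  have haF : (a : levelField (inertiaField A) M) = b * h := rfl
  have ha0 : a ≠ 0 := fun h' => mul_ne_zero hb0' hh0 (congrArg Subtype.val h')
  have hord_ab : v.ord (levelToBar M A a) = v.ord (levelToBar M A b) := by
    rw [haF, map_mul, v.ord_mul (hι hb0') (hι hh0), hord, add_zero]
  -- the cofactor of a unit is a unit
  have hnot : ∀ {x y c s : modelAlg M A}, s ∉ p → x ≠ 0 → y ≠ 0 →
      v.ord (levelToBar M A x) = v.ord (levelToBar M A y) → s * y = x * c → c ∉ p := by
    intro x y c s hs hx hy hxy heq
    have hs0 : s ≠ 0 := fun h' => hs (h' ▸ zero_mem p)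
    have hc0 : c ≠ 0 := fun h' => mul_ne_zero hs0 hy (by rw [heq, h', mul_zero])
    have hι' : ∀ {z : modelAlg M A}, z ≠ 0 → levelToBar M A z ≠ 0 :=
      fun hz => hι fun h' => hz (Subtype.ext h')
    have h' := congrArg (fun z : modelAlg M A => v.ord (levelToBar M A z)) heq
    simp only [MulMemClass.coe_mul, map_mul] at h'
    rw [v.ord_mul (hι' hs0) (hι' hy), v.ord_mul (hι' hx) (hι' hc0)] at h'
    have h1 := (hv s hs0).2
    have h2 := (hv s hs0).1
    intro hc
    have h3 := (hv c hc0).2.1 hc
    have : ¬ 0 < v.ord (levelToBar M A s) := fun h4 => hs (h1.2 h4)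
    omega
  obtain ⟨c, s, hs, hcs | hcs⟩ := exists_dvd_or_dvd M hA hq p hqp a b
  · have hc := hnot hs ha0 hb0 hord_ab hcs
    refine ⟨g, c, s, hc, hs, ?_⟩
    have h' := congrArg Subtype.val hcs
    simp only [MulMemClass.coe_mul, haF] at h'
    have key : (c : levelField (inertiaField A) M) * h = s :=
      mul_left_cancel₀ hb0' (by linear_combination -h')
    rw [hfgh, ← mul_assoc, key]
  · have hc := hnot hs hb0 ha0 hord_ab.symm hcs
    refine ⟨g, s, c, hs, hc, ?_⟩
    have h' := congrArg Subtype.val hcs
    simp only [MulMemClass.coe_mul, haF] at h'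
    have key : (s : levelField (inertiaField A) M) * h = c :=
      mul_left_cancel₀ hb0' (by linear_combination h')
    rw [hfgh, ← mul_assoc, key]

/-- At a prime of the model not containing `q`, a function all of whose orders are divisible by
`n` is a unit times an `n`-th power. -/
theorem exists_mul_eq_mul_pow (hA : A.LiesOverPrime q) (hq : q.Prime) {n : ℕ} (hn : 0 < n)
    (f : levelField (inertiaField A) M)
    (hf : ∀ v : Place Qbar (modularFunctionFieldBar M), (n : ℤ) ∣ v.ord (levelToBar M A f))
    (p : Ideal (modelAlg M A)) [hp : p.IsPrime] (hqp : (q : modelAlg M A) ∉ p) :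
    ∃ (g : levelField (inertiaField A) M) (s t : modelAlg M A), s ∉ p ∧ t ∉ p ∧
      (s : levelField (inertiaField A) M) * f = t * g ^ n :=
  exists_mul_eq_mul_pow_of_finite M hA hq hn f (fun v _ => hf v) p hqp

end Fermat.Agent.Carayol.Local
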