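import Fermat.Agent.Carayol.Local.ModelFinite
import Mathlib.RingTheory.Finiteness.Basic
import Mathlib.RingTheory.FiniteType

/-!
# The model as an algebra over `W` inside the level field over the inertia field

`modelAlg A M` is the model as a subalgebra of `levelField (inertiaField A) M`.
-/

set_option autoImplicit false

noncomputable section

open Fermat.Agent.GaloisBasics (Qbar)
open ModularCurve
open scoped Polynomial

namespace Fermat.Agent.Carayol.Local

variable {A : ValuationSubring Qbar} {q : ℕ}

/-- The level field over the inertia field is an algebra over `W`. -/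
instance levelAlgebra (A : ValuationSubring Qbar) (M : ℕ) [NeZero M] :
    Algebra (unramInt A) (levelField (inertiaField A) M) :=
  RingHom.toAlgebra (((HahnSeries.C : Qbar →+* LaurentSeries Qbar).comp (unramInt A).subtype).codRestrict
    (levelField (inertiaField A) M) fun c =>
      C_mem_levelField M (mem_inertiaField_iff.2 (mem_unramInt_iff.1 c.2).2))

/-- `W` maps to the level field as constants. -/
theorem coe_algebraMap_level (M : ℕ) [NeZero M] (c : unramInt A) :
    ((algebraMap (unramInt A) (levelField (inertiaField A) M) c : levelField (inertiaField A) M) :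
      LaurentSeries Qbar) = HahnSeries.C (c : Qbar) := rfl

variable (M : ℕ) [NeZero M]

omit [NeZero M] in
theorem C_mem_modelSubring {c : Qbar} (hc : c ∈ unramInt A) :
    HahnSeries.C c ∈ modelSubring M A :=
  (toModelSubring M A ⟨_, C_mem_jPolyRing hc⟩).2

/-- The model as a `W`-subalgebra of the level field. -/
def modelAlg (A : ValuationSubring Qbar) :
    Subalgebra (unramInt A) (levelField (inertiaField A) M) :=
  { (modelSubring M A).comap (levelField (inertiaField A) M).subtype with
    algebraMap_mem' := fun c => C_mem_modelSubring M c.2 }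

/-- Membership in `modelAlg` is membership of the series in `modelSubring`. -/
theorem mem_modelAlg_iff {x : levelField (inertiaField A) M} :
    x ∈ modelAlg M A ↔ (x : LaurentSeries Qbar) ∈ modelSubring M A := Iff.rfl

/-- The two descriptions of the model agree. -/
def modelAlgEquiv (A : ValuationSubring Qbar) : modelAlg M A ≃+* modelSubring M A where
  toFun x := ⟨x.1.1, x.2⟩
  invFun x := ⟨⟨x.1, (mem_modelSubring_iff.1 x.2).2⟩, x.2⟩
  left_inv _ := rfl
  right_inv _ := rfl
  map_mul' _ _ := rfl
  map_add' _ _ := rfl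

/-- The model is noetherian. -/
theorem isNoetherianRing_modelAlg (hA : A.LiesOverPrime q) (hq : q.Prime) :
    IsNoetherianRing (modelAlg M A) := by
  have := isNoetherianRing_modelSubring M hA hq
  exact isNoetherianRing_of_ringEquiv _ (modelAlgEquiv M A).symm

/-- The model is integrally closed. -/
theorem isIntegrallyClosed_modelAlg : IsIntegrallyClosed (modelAlg M A) := by
  have := isIntegrallyClosed_modelSubring (A := A) M
  exact IsIntegrallyClosed.of_equiv (modelAlgEquiv M A).symm

/-- An element of the level field integral over the model belongs to it. -/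
theorem mem_modelAlg_of_isIntegral {x : levelField (inertiaField A) M}
    (hx : IsIntegral (modelAlg M A) x) : x ∈ modelAlg M A := by
  refine mem_modelSubring_of_isIntegral M x.2 ?_
  obtain ⟨P, hP, hPx⟩ := hx
  refine ⟨P.map (modelAlgEquiv M A).toRingHom, hP.map _, ?_⟩
  rw [Polynomial.eval₂_map]
  have h := congrArg (levelField (inertiaField A) M).subtype hPx
  rw [map_zero, Polynomial.hom_eval₂] at h
  exact h

/-- Every element of the level field is a quotient of model elements. -/
theorem exists_mul_mem_modelAlg (hA : A.LiesOverPrime q) (hq : q.Prime)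
    (x : levelField (inertiaField A) M) :
    ∃ b : modelAlg M A, b ≠ 0 ∧ (b : levelField (inertiaField A) M) * x ∈ modelAlg M A := by
  obtain ⟨a, ha, b, hb, hb0, hab⟩ := exists_mul_eq_of_mem_levelField M hA hq x.2
  refine ⟨⟨⟨b, (mem_modelSubring_iff.1 hb).2⟩, hb⟩,
    fun h => hb0 (congrArg (fun z : modelAlg M A =>
      ((z : levelField (inertiaField A) M) : LaurentSeries Qbar)) h), ?_⟩
  show b * (x : LaurentSeries Qbar) ∈ modelSubring M A
  rwa [mul_comm, hab]

omit [NeZero M] in
theorem jBar_mem_levelField : jBar ∈ levelField (inertiaField A) M :=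
  jPolyRing_le_levelField M jBar_mem_jPolyRing

/-- `j` in the model. -/
def jModel (A : ValuationSubring Qbar) : modelAlg M A :=
  ⟨⟨jBar, jBar_mem_levelField M⟩, (toModelSubring M A ⟨_, jBar_mem_jPolyRing⟩).2⟩

/-- `W[X] → model`, `X ↦ j`. -/
def jAlgHom (A : ValuationSubring Qbar) : (unramInt A)[X] →ₐ[unramInt A] modelAlg M A :=
  Polynomial.aeval (jModel M A)

theorem jAlgHom_toRingHom :
    (modelAlgEquiv M A).toRingHom.comp (jAlgHom M A).toRingHom =
      (toModelSubring M A).comp (jPolyEquiv A).toRingHom := by
  refine Polynomial.ringHom_ext (fun c => Subtype.ext ?_) (Subtype.ext ?_)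
  · show ((jAlgHom M A (Polynomial.C c) : modelAlg M A).1.1) = jEval A (Polynomial.C c)
    rw [jAlgHom, Polynomial.aeval_C, jEval_C]
    rfl
  · show ((jAlgHom M A Polynomial.X : modelAlg M A).1.1) = jEval A Polynomial.X
    rw [jAlgHom, Polynomial.aeval_X, jEval_X]
    rfl

/-- The model is finite over `W[j]`. -/
theorem jAlgHom_finite (hA : A.LiesOverPrime q) (hq : q.Prime) :
    (jAlgHom M A).toRingHom.Finite := by
  have h : (jAlgHom M A).toRingHom = (modelAlgEquiv M A).symm.toRingHom.comp
      ((toModelSubring M A).comp (jPolyEquiv A).toRingHom) := by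
    rw [← jAlgHom_toRingHom, ← RingHom.comp_assoc]
    refine RingHom.ext fun x => ?_
    exact ((modelAlgEquiv M A).symm_apply_apply _).symm
  rw [h]
  exact (RingHom.Finite.of_surjective _ (modelAlgEquiv M A).symm.surjective).comp
    ((toModelSubring_finite M hA hq).comp (RingHom.Finite.of_surjective _ (jPolyEquiv A).surjective))

/-- The model is of finite type over `W`. -/
theorem finiteType_modelAlg (hA : A.LiesOverPrime q) (hq : q.Prime) :
    Algebra.FiniteType (unramInt A) (modelAlg M A) := by
  let := (jAlgHom M A).toRingHom.toAlgebra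
  have : IsScalarTower (unramInt A) (unramInt A)[X] (modelAlg M A) :=
    IsScalarTower.of_algebraMap_eq fun c => ((jAlgHom M A).commutes c).symm
  have : Module.Finite (unramInt A)[X] (modelAlg M A) :=
    RingHom.finite_algebraMap.1 (jAlgHom_finite M hA hq)
  exact Algebra.FiniteType.trans (inferInstance : Algebra.FiniteType (unramInt A) (unramInt A)[X])
    inferInstance

/-- The model is integral over every subalgebra containing `j`. -/
theorem isIntegral_of_jModel_mem (hA : A.LiesOverPrime q) (hq : q.Prime)
    {S : Subalgebra (unramInt A) (modelAlg M A)} (hS : jModel M A ∈ S) (x : modelAlg M A) :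
    IsIntegral S x := by
  obtain ⟨P, hP, hPx⟩ := (jAlgHom_finite M hA hq).to_isIntegral x
  let φ : (unramInt A)[X] →ₐ[unramInt A] S := Polynomial.aeval ⟨jModel M A, hS⟩
  have hφ : (algebraMap S (modelAlg M A)).comp φ.toRingHom = (jAlgHom M A).toRingHom := by
    have : (S.val.comp φ) = jAlgHom M A := Polynomial.algHom_ext (by simp [φ, jAlgHom])
    exact congrArg AlgHom.toRingHom this
  refine ⟨P.map φ.toRingHom, hP.map _, ?_⟩
  rw [Polynomial.eval₂_map, hφ]
  exact hPx

omit [NeZero M] in
/-- `q` is nonzero in the level field. -/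
theorem natCast_ne_zero_level (hq : q.Prime) :
    ((q : ℕ) : levelField (inertiaField A) M) ≠ 0 := by
  intro h
  have h1 : ((q : ℕ) : LaurentSeries Qbar) = 0 := by
    simpa using congrArg (levelField (inertiaField A) M).subtype h
  exact hq.ne_zero (charZero_laurentSeries_Qbar.cast_injective (by simpa using h1))

/-- The maximal ideal of `W`. -/
theorem maximalIdeal_unramInt (hA : A.LiesOverPrime q) (hq : q.Prime) :
    haveI := isDiscreteValuationRing_unramInt hA hq
    IsLocalRing.maximalIdeal (unramInt A) = Ideal.span {(q : unramInt A)} := by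
  have := isDiscreteValuationRing_unramInt hA hq
  ext x
  rw [IsLocalRing.mem_maximalIdeal, mem_nonunits_iff, isUnit_unramInt_iff,
    mem_span_natCast_iff hA hq]
  have hle : A.valuation (x : Qbar) ≤ 1 :=
    (A.valuation_le_one_iff _).2 (mem_unramInt_iff.1 x.2).1
  exact ⟨fun h => lt_of_le_of_ne hle h, ne_of_lt⟩

/-- Teichmüller representatives in `W`: roots of `X^(q^f) - X` modulo `q` lift to roots. -/
theorem exists_teichmuller (hA : A.LiesOverPrime q) (hq : q.Prime) {f : ℕ} (hf : 0 < f)
    {a : unramInt A} (ha : (q : unramInt A) ∣ a ^ q ^ f - a) :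
    ∃ a' : unramInt A, a' ^ q ^ f = a' ∧ (q : unramInt A) ∣ a' - a := by
  by_cases h0 : (q : unramInt A) ∣ a
  · exact ⟨0, zero_pow (pow_ne_zero _ hq.ne_zero), by rwa [zero_sub, dvd_neg]⟩
  set n := q ^ f - 1 with hn
  have hq1 : 1 < q ^ f := Nat.one_lt_pow hf.ne' hq.one_lt
  let aA : A := ⟨a, (mem_unramInt_iff.1 a.2).1⟩
  have hlt : ∀ {z : unramInt A}, (q : unramInt A) ∣ z → A.valuation (z : Qbar) < 1 := fun h =>
    (mem_span_natCast_iff hA hq).1 (Ideal.mem_span_singleton.2 h)
  have hres : ∀ z : A, IsLocalRing.residue A z = 0 ↔ A.valuation (z : Qbar) < 1 := fun z => by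
    rw [IsLocalRing.residue_eq_zero_iff, A.valuation_lt_one_iff]
  have hyne : IsLocalRing.residue A aA ≠ 0 := fun h => h0 <| Ideal.mem_span_singleton.1
    ((mem_span_natCast_iff hA hq).2 ((hres aA).1 h))
  have hy : IsLocalRing.residue A aA ^ q ^ f = IsLocalRing.residue A aA := by
    rw [← sub_eq_zero, ← map_pow, ← map_sub, hres]
    simpa using hlt ha
  obtain ⟨w, hw, hwy⟩ := FlatBound.exists_root_of_unity_residue hA hq hyne hf hy
  have hwW : (w : Qbar) ∈ unramInt A := rootOfUnity_mem_unramInt hA hq (n := n) (fun h => by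
    have h1 : q ∣ n + 1 := by rw [hn, Nat.sub_add_cancel hq1.le]; exact dvd_pow_self q hf.ne'
    exact hq.one_lt.ne' (Nat.dvd_one.1 ((Nat.dvd_add_right h).1 h1))) hw
  refine ⟨⟨w, hwW⟩, Subtype.ext ?_, Ideal.mem_span_singleton.1
    ((mem_span_natCast_iff hA hq).2 ?_)⟩
  · show (w : Qbar) ^ q ^ f = w
    rw [show q ^ f = n + 1 by omega, pow_succ, hw, one_mul]
  · have h := (hres (w - aA)).1 (by rw [map_sub, hwy, sub_self])
    simpa using h

end Fermat.Agent.Carayol.Local
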