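import Fermat.Agent.Carayol.Local.Series
import Fermat.Agent.Conn.LocalFactor
import Fermat.Agent.KummerES.LocalSeries

/-!
# Roots of Laurent series over a discrete valuation ring, up to a constant and a monomial

If at every principal prime a series is locally a unit times an `n`-th power, then it is a monomial
times a constant times an `n`-th power, up to quotients.
-/

set_option autoImplicit false

noncomputable section

open scoped LaurentSeries

namespace Fermat.Agent.Carayol.Local

variable {O : Type} [CommRing O] [IsDomain O]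

omit [IsDomain O] in
/-- The constant series of a prime with prime quotient spans a prime ideal: coefficientwise
divisibility. -/
theorem mem_span_C_iff {ϖ : O} {y : LaurentSeries O} :
    y ∈ Ideal.span {(HahnSeries.C ϖ : LaurentSeries O)} ↔ ∀ i, ϖ ∣ y.coeff i := by
  rw [Ideal.mem_span_singleton]
  constructor
  · rintro ⟨z, rfl⟩ i
    exact ⟨z.coeff i, by rw [HahnSeries.C_apply, HahnSeries.coeff_single_zero_mul]⟩
  · intro h
    classical
    choose c hc using h
    let c' : ℤ → O := fun i => if y.coeff i = 0 then 0 else c i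
    have hc' : ∀ i, y.coeff i = ϖ * c' i := by
      intro i
      by_cases h0 : y.coeff i = 0
      · simp [c', h0]
      · simp only [c', if_neg h0]
        exact hc i
    refine ⟨⟨c', y.isPWO_support.mono fun i hi => ?_⟩, ?_⟩
    · simp only [Function.mem_support, ne_eq] at hi ⊢
      exact fun h0 => hi (by simp [c', h0])
    · ext i
      rw [HahnSeries.C_apply, HahnSeries.coeff_single_zero_mul, hc' i]

/-- A uniformiser is prime among Laurent series. -/
theorem prime_C [IsDiscreteValuationRing O] {ϖ : O} (hϖ : Irreducible ϖ) :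
    Prime (HahnSeries.C ϖ : LaurentSeries O) := by
  have h0 : (HahnSeries.C ϖ : LaurentSeries O) ≠ 0 := HahnSeries.C_ne_zero hϖ.ne_zero
  rw [← Ideal.span_singleton_prime h0]
  have hker : Ideal.span {(HahnSeries.C ϖ : LaurentSeries O)} =
      RingHom.ker (ModularCurve.coeffMap (IsLocalRing.residue O)) := by
    ext y
    rw [mem_span_C_iff, RingHom.mem_ker]
    constructor
    · intro h
      ext i
      rw [ModularCurve.coeffMap_coeff, HahnSeries.coeff_zero, IsLocalRing.residue_eq_zero_iff,
        hϖ.maximalIdeal_eq, Ideal.mem_span_singleton]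
      exact h i
    · intro h i
      have := congrArg (fun z : LaurentSeries (IsLocalRing.ResidueField O) => z.coeff i) h
      simp only [ModularCurve.coeffMap_coeff, HahnSeries.coeff_zero] at this
      rwa [IsLocalRing.residue_eq_zero_iff, hϖ.maximalIdeal_eq, Ideal.mem_span_singleton] at this
  rw [hker]
  exact RingHom.ker_isPrime _

/-- A series which at each principal prime is locally a unit times an `n`-th power is a monomial
times a unit power series times an `n`-th power, up to a denominator. -/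
theorem exists_monomial_mul_pow [IsPrincipalIdealRing O] {n : ℕ} (hn : 0 < n)
    (f : LaurentSeries O) (hf : f ≠ 0)
    (h : ∀ π : LaurentSeries O, Prime π → ∃ x y s t : LaurentSeries O,
      y ≠ 0 ∧ ¬ π ∣ s ∧ ¬ π ∣ t ∧ s * f * y ^ n = t * x ^ n) :
    ∃ (o : ℤ) (v : PowerSeries O) (x y : LaurentSeries O), IsUnit v ∧ y ≠ 0 ∧
      f * y ^ n = HahnSeries.single o 1 * HahnSeries.ofPowerSeries ℤ O v * x ^ n := by
  classical
  let K := FractionRing (PowerSeries O)
  let ι := algebraMap (PowerSeries O) (LaurentSeries O)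
  have hι : ∀ z, ι z = HahnSeries.ofPowerSeries ℤ O z := fun z => rfl
  let S := Submonoid.powers (PowerSeries.X : PowerSeries O)
  have hS : S ≤ nonZeroDivisors (PowerSeries O) :=
    powers_le_nonZeroDivisors_of_noZeroDivisors PowerSeries.X_ne_zero
  have hιinj : Function.Injective ι := IsLocalization.injective _ hS
  let lift : LaurentSeries O →+* K := IsLocalization.lift (M := S) (S := LaurentSeries O)
    (g := algebraMap (PowerSeries O) K) fun z => IsUnit.mk0 _ (by
      rw [ne_eq, map_eq_zero_iff _ (IsFractionRing.injective (PowerSeries O) K)]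
      exact nonZeroDivisors.ne_zero (hS z.2))
  have hlift : ∀ z, lift (ι z) = algebraMap (PowerSeries O) K z := fun z => IsLocalization.lift_eq _ z
  have hliftinj : Function.Injective lift := by
    refine (injective_iff_map_eq_zero lift).2 fun z hz => ?_
    obtain ⟨⟨a, b⟩, hab⟩ := IsLocalization.surj S z
    have h1 := congrArg lift hab
    rw [map_mul, hz, zero_mul, hlift] at h1
    have ha : a = 0 := IsFractionRing.injective (PowerSeries O) K (by rw [← h1, map_zero])
    rw [ha, map_zero] at hab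
    exact (mul_eq_zero.1 hab).resolve_right fun h0 => nonZeroDivisors.ne_zero (hS b.2)
      (hιinj (h0.trans (map_zero ι).symm))
  set o := f.order with ho
  set fs := f.powerSeriesPart with hfs
  have hf' : HahnSeries.single o 1 * ι fs = f :=
    LaurentSeries.single_order_mul_powerSeriesPart f
  have hfs0 : fs ≠ 0 := fun h0 => hf ((LaurentSeries.powerSeriesPart_eq_zero f).1 h0)
  have hXfs : ¬ PowerSeries.X ∣ fs := by
    rw [PowerSeries.X_dvd_iff, ← PowerSeries.coeff_zero_eq_constantCoeff_apply, hfs,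
      LaurentSeries.powerSeriesPart_coeff, Nat.cast_zero, add_zero]
    exact HahnSeries.coeff_order_eq_zero.not.2 hf
  have hXpow : ∀ i : ℕ, ι (PowerSeries.X ^ i) = HahnSeries.single (i : ℤ) (1 : O) := fun i => by
    rw [hι, HahnSeries.ofPowerSeries_X_pow]
  obtain ⟨g, v, hv, hg⟩ := Conn.exists_root_of_prime_local (K := K) hn fs hfs0 (fun p hp => by
    by_cases hpX : p ∣ PowerSeries.X
    · refine ⟨1, 1, fs, hp.not_dvd_one, fun hd => hXfs ?_, by simp⟩
      exact ((hp.irreducible.associated_of_dvd PowerSeries.X_irreducible hpX).symm.dvd).trans hd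
    -- `p` stays prime among Laurent series
    have hprime : (Ideal.span {p}).IsPrime := (Ideal.span_singleton_prime hp.ne_zero).2 hp
    have hdisj : Disjoint (S : Set (PowerSeries O)) ↑(Ideal.span {p}) := by
      rw [Set.disjoint_left]
      rintro _ ⟨i, rfl⟩ hmem
      exact hpX (hp.dvd_of_dvd_pow (Ideal.mem_span_singleton.1 hmem))
    have hπp : (Ideal.span {p}).map ι = Ideal.span {ι p} := by
      rw [Ideal.map_span, Set.image_singleton]
    have hπ0 : ι p ≠ 0 := fun h0 => hp.ne_zero (hιinj (h0.trans (map_zero ι).symm))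
    have hπ : Prime (ι p) := by
      rw [← Ideal.span_singleton_prime hπ0, ← hπp]
      exact IsLocalization.isPrime_of_isPrime_disjoint S _ _ hprime hdisj
    obtain ⟨x, y, s, t, hy, hs, ht, e⟩ := h (ι p) hπ
    obtain ⟨⟨s', bs⟩, hs'⟩ := IsLocalization.surj S s
    obtain ⟨⟨t', bt⟩, ht'⟩ := IsLocalization.surj S t
    obtain ⟨i, hi⟩ := bs.2
    obtain ⟨j, hj⟩ := bt.2
    simp only at hs' ht' hi hj
    rw [← hi] at hs'
    rw [← hj] at ht'
    have hndvd : ∀ {z : LaurentSeries O} {z' : PowerSeries O} {i : ℕ} (N : ℕ), ¬ ι p ∣ z →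
        z * ι (PowerSeries.X ^ i) = ι z' → ¬ p ∣ z' * PowerSeries.X ^ N := by
      intro z z' i N hz hzz hd
      rcases hp.dvd_or_dvd hd with hd | hd
      · have h1 : ι p ∣ z * ι (PowerSeries.X ^ i) := hzz ▸ map_dvd ι hd
        rcases hπ.dvd_or_dvd h1 with h1 | h1
        · exact hz h1
        · exact hπ.not_isUnit (isUnit_of_dvd_unit h1
            (IsLocalization.map_units (LaurentSeries O) (⟨_, i, rfl⟩ : S)))
      · exact hpX (hp.dvd_of_dvd_pow hd)
    obtain ⟨o₁, o₂, ho₁₂⟩ : ∃ o₁ o₂ : ℕ, o = (o₁ : ℤ) - o₂ :=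
      ⟨o.toNat, (-o).toNat, (Int.toNat_sub_toNat_neg o).symm⟩
    refine ⟨lift x / lift y, s' * PowerSeries.X ^ (o₁ + j), t' * PowerSeries.X ^ (o₂ + i),
      hndvd _ hs hs', hndvd _ ht ht', ?_⟩
    have hy' : lift y ≠ 0 := fun h0 => hy (hliftinj (h0.trans (map_zero lift).symm))
    rw [div_pow, ← mul_div_assoc, eq_div_iff (pow_ne_zero n hy'), ← hlift, ← hlift fs, ← hlift]
    have hfo : HahnSeries.single (o₁ : ℤ) (1 : O) * ι fs = HahnSeries.single (o₂ : ℤ) (1 : O) * f := by
      rw [← hf', ← mul_assoc, HahnSeries.single_mul_single, one_mul, ho₁₂, add_sub_cancel]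
    have key : ι (s' * PowerSeries.X ^ (o₁ + j)) * ι fs * y ^ n =
        ι (t' * PowerSeries.X ^ (o₂ + i)) * x ^ n := by
      rw [map_mul ι s', map_mul ι t', ← hs', ← ht', pow_add, pow_add, map_mul ι, map_mul ι,
        hXpow o₁, hXpow o₂]
      linear_combination (s * y ^ n * ι (PowerSeries.X ^ i) * ι (PowerSeries.X ^ j)) * hfo +
        (HahnSeries.single (o₂ : ℤ) (1 : O) * ι (PowerSeries.X ^ i) * ι (PowerSeries.X ^ j)) * e
    simpa only [map_mul, map_pow] using congrArg lift key)
  obtain ⟨⟨x, y⟩, hxy⟩ := IsLocalization.surj (nonZeroDivisors (PowerSeries O)) g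
  simp only at hxy
  have hps : fs * (y : PowerSeries O) ^ n = v * x ^ n := by
    apply IsFractionRing.injective (PowerSeries O) K
    rw [map_mul, map_mul, map_pow, map_pow, hg, ← hxy]
    ring
  refine ⟨o, v, ι x, ι y, hv, fun h0 => nonZeroDivisors.ne_zero y.2
    (hιinj (h0.trans (map_zero ι).symm)), ?_⟩
  have h1 := congrArg ι hps
  rw [map_mul, map_mul, map_pow, map_pow, hι v] at h1
  rw [← hf', mul_assoc, h1, mul_assoc]

omit [IsDomain O] in
/-- A unit power series is a constant times an `n`-th power when `n` is invertible. -/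
theorem exists_C_mul_pow {n : ℕ} (hn : IsUnit (n : O)) {v : PowerSeries O} (hv : IsUnit v) :
    ∃ (c : O) (w : PowerSeries O), IsUnit c ∧ v = PowerSeries.C c * w ^ n := by
  have hc : IsUnit (PowerSeries.constantCoeff v) := PowerSeries.isUnit_constantCoeff v hv
  obtain ⟨w, hw, -⟩ := KummerES.exists_pow_eq_of_constantCoeff_one n hn
    (PowerSeries.C (↑hc.unit⁻¹ : O) * v) (by
      rw [map_mul, PowerSeries.constantCoeff_C]; exact IsUnit.val_inv_mul hc)
  refine ⟨PowerSeries.constantCoeff v, w, hc, ?_⟩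
  rw [hw, ← mul_assoc, ← map_mul, IsUnit.mul_val_inv, map_one, one_mul]

/-- Content of a nonzero series. -/
theorem exists_C_pow_mul [IsDiscreteValuationRing O] {ϖ : O} (hϖ : Irreducible ϖ)
    {P : LaurentSeries O} (hP : P ≠ 0) :
    ∃ (i : ℕ) (P' : LaurentSeries O), P = HahnSeries.C ϖ ^ i * P' ∧
      ¬ (HahnSeries.C ϖ : LaurentSeries O) ∣ P' := by
  classical
  have hex : ∃ i, ¬ (HahnSeries.C ϖ : LaurentSeries O) ^ (i + 1) ∣ P := by
    obtain ⟨m, hm⟩ : ∃ m, P.coeff m ≠ 0 := by
      by_contra! h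
      exact hP (HahnSeries.ext (funext h))
    obtain ⟨k, u, hk⟩ := IsDiscreteValuationRing.eq_unit_mul_pow_irreducible hm hϖ
    refine ⟨k, fun ⟨z, hz⟩ => ?_⟩
    rw [hz, ← map_pow, HahnSeries.C_apply, HahnSeries.coeff_single_zero_mul, pow_succ] at hk
    have h1 : ϖ * z.coeff m = u := mul_left_cancel₀ (pow_ne_zero k hϖ.ne_zero)
      (by rw [← mul_assoc, hk, mul_comm])
    exact hϖ.not_isUnit (isUnit_of_mul_isUnit_left (h1 ▸ u.isUnit))
  have hspec := Nat.find_spec hex
  have hdvd : (HahnSeries.C ϖ : LaurentSeries O) ^ Nat.find hex ∣ P := by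
    rcases Nat.eq_zero_or_pos (Nat.find hex) with h0 | h0
    · rw [h0, pow_zero]; exact one_dvd P
    · have := Nat.find_min hex (Nat.sub_lt h0 one_pos)
      rwa [not_not, show Nat.find hex - 1 + 1 = Nat.find hex by omega] at this
  obtain ⟨P', hP'⟩ := hdvd
  refine ⟨_, P', hP', fun ⟨z, hz⟩ => hspec ⟨z, ?_⟩⟩
  conv_lhs => rw [hP', hz]
  rw [pow_succ, mul_assoc]

theorem coeff_ofPowerSeries_of_neg {R : Type} [CommRing R] (z : PowerSeries R) {m : ℤ}
    (hm : m < 0) : (HahnSeries.ofPowerSeries ℤ R z).coeff m = 0 := by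
  rw [HahnSeries.ofPowerSeries_apply]
  refine HahnSeries.embDomain_of_notMem_range ?_
  rintro ⟨j, hj⟩
  change (j : ℤ) = m at hj
  omega

theorem order_ofPowerSeries_of_constantCoeff {R : Type} [CommRing R] {v : PowerSeries R}
    (hv : PowerSeries.constantCoeff v ≠ 0) :
    (HahnSeries.ofPowerSeries ℤ R v).order = 0 := by
  have h0 : (HahnSeries.ofPowerSeries ℤ R v).coeff ((0 : ℕ) : ℤ) ≠ 0 := by
    rw [HahnSeries.ofPowerSeries_apply_coeff, PowerSeries.coeff_zero_eq_constantCoeff_apply]
    exact hv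
  have hne : HahnSeries.ofPowerSeries ℤ R v ≠ 0 := fun h => h0 (by rw [h]; rfl)
  refine le_antisymm (HahnSeries.order_le_of_coeff_ne_zero h0) (not_lt.1 fun hlt => ?_)
  exact HahnSeries.coeff_order_eq_zero.not.2 hne (coeff_ofPowerSeries_of_neg v hlt)

/-- Cancelling the content in an equation between `n`-th powers. -/
theorem cancel_prime_pow {R : Type*} [CommRing R] [IsDomain R] {E u t P Q : R} (hE : Prime E)
    {n i k : ℕ} (hu : ¬ E ∣ u) (ht : ¬ E ∣ t) (hP : ¬ E ∣ P) (hQ : ¬ E ∣ Q)
    (h : u * (E ^ i * P) ^ n = t * (E ^ k * Q) ^ n) : u * P ^ n = t * Q ^ n := by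
  have hA : ¬ E ∣ u * P ^ n := hE.not_dvd_mul hu fun h' => hP (hE.dvd_of_dvd_pow h')
  have hB : ¬ E ∣ t * Q ^ n := hE.not_dvd_mul ht fun h' => hQ (hE.dvd_of_dvd_pow h')
  have heq : E ^ (i * n) * (u * P ^ n) = E ^ (k * n) * (t * Q ^ n) := by
    rw [pow_mul, pow_mul]; linear_combination h
  have key : ∀ a b : ℕ, ∀ X Y : R, ¬ E ∣ X → E ^ a * X = E ^ b * Y → b ≤ a := by
    intro a b X Y hX hXY
    by_contra! hlt
    obtain ⟨r, rfl⟩ := Nat.exists_eq_add_of_lt hlt
    rw [add_assoc, pow_add, mul_assoc] at hXY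
    rw [mul_left_cancel₀ (pow_ne_zero a hE.ne_zero) hXY] at hX
    exact hX ((dvd_pow_self E (Nat.succ_ne_zero r)).mul_right Y)
  have hab : i * n = k * n :=
    le_antisymm (key _ _ _ _ hB heq.symm) (key _ _ _ _ hA heq)
  rw [hab] at heq
  exact mul_left_cancel₀ (pow_ne_zero _ hE.ne_zero) heq

/-- If two series with the same nonzero reduction differ by a monomial, a unit and an `n`-th power,
the exponent of the monomial is divisible by `n`. -/
theorem dvd_of_mul_pow_eq [IsDiscreteValuationRing O] {ϖ : O} (hϖ : Irreducible ϖ) {n : ℕ}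
    (hn : 0 < n) {s t P Q : LaurentSeries O} {o : ℤ} {v : PowerSeries O} (hv : IsUnit v)
    (hs : ¬ (HahnSeries.C ϖ : LaurentSeries O) ∣ s)
    (hst : (HahnSeries.C ϖ : LaurentSeries O) ∣ s - t) (hP : P ≠ 0)
    (h : s * (HahnSeries.single o 1 * HahnSeries.ofPowerSeries ℤ O v) * P ^ n = t * Q ^ n) :
    (n : ℤ) ∣ o := by
  classical
  set E : LaurentSeries O := HahnSeries.C ϖ with hE
  have hEp : Prime E := prime_C hϖ
  set w : LaurentSeries O := HahnSeries.single o 1 * HahnSeries.ofPowerSeries ℤ O v with hw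
  have hwu : IsUnit w := by
    refine IsUnit.mul ?_ (hv.map _)
    refine IsUnit.of_mul_eq_one (HahnSeries.single (-o) 1) ?_
    rw [HahnSeries.single_mul_single, one_mul, add_neg_cancel, HahnSeries.single_zero_one]
  have ht : ¬ E ∣ t := fun h' => hs (by simpa using dvd_add hst h')
  have hne : ∀ {z : LaurentSeries O}, ¬ E ∣ z → z ≠ 0 := fun hz h0 => hz (h0 ▸ dvd_zero E)
  have hQ : Q ≠ 0 := by
    rintro rfl
    rw [zero_pow hn.ne', mul_zero] at h
    exact mul_ne_zero (mul_ne_zero (hne hs) hwu.ne_zero) (pow_ne_zero n hP) h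
  obtain ⟨i, P', rfl, hP'⟩ := exists_C_pow_mul hϖ hP
  obtain ⟨k, Q', rfl, hQ'⟩ := exists_C_pow_mul hϖ hQ
  have hsw : ¬ E ∣ s * w :=
    hEp.not_dvd_mul hs fun h' => hEp.not_isUnit (isUnit_of_dvd_unit h' hwu)
  have hcanc : s * w * P' ^ n = t * Q' ^ n := cancel_prime_pow hEp hsw ht hP' hQ' h
  set red := ModularCurve.coeffMap (IsLocalRing.residue O) with hred
  have hker : ∀ z, E ∣ z ↔ red z = 0 := by
    intro z
    rw [hE, ← Ideal.mem_span_singleton, mem_span_C_iff]
    constructor
    · intro hz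
      ext m
      rw [hred, ModularCurve.coeffMap_coeff, HahnSeries.coeff_zero,
        IsLocalRing.residue_eq_zero_iff, hϖ.maximalIdeal_eq, Ideal.mem_span_singleton]
      exact hz m
    · intro hz m
      have := congrArg (fun z : LaurentSeries (IsLocalRing.ResidueField O) => z.coeff m) hz
      simp only [hred, ModularCurve.coeffMap_coeff, HahnSeries.coeff_zero] at this
      rwa [IsLocalRing.residue_eq_zero_iff, hϖ.maximalIdeal_eq, Ideal.mem_span_singleton] at this
  have hs' : red s ≠ 0 := fun h' => hs ((hker s).2 h')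
  have hts : red t = red s := (sub_eq_zero.1 (by rw [← map_sub]; exact (hker _).1 hst)).symm
  have h1 := congrArg red hcanc
  rw [map_mul red (s * w), map_mul red s w, map_mul red t, map_pow, map_pow, hts, mul_assoc] at h1
  have h2 := mul_left_cancel₀ hs' h1
  have hP'' : red P' ≠ 0 := fun h' => hP' ((hker P').2 h')
  have hw' : (red w).order = o := by
    have hv0 : PowerSeries.constantCoeff (PowerSeries.map (IsLocalRing.residue O) v) ≠ 0 := by
      rw [← PowerSeries.coeff_zero_eq_constantCoeff_apply, PowerSeries.coeff_map,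
        PowerSeries.coeff_zero_eq_constantCoeff_apply]
      exact ((PowerSeries.isUnit_constantCoeff v hv).map _).ne_zero
    have hrw : red w = HahnSeries.single o 1 *
        HahnSeries.ofPowerSeries ℤ _ (PowerSeries.map (IsLocalRing.residue O) v) := by
      rw [hw, map_mul]
      congr 1
      · rw [hred, ModularCurve.coeffMap_single, map_one]
      · ext m
        rw [hred, ModularCurve.coeffMap_coeff]
        rcases le_or_gt 0 m with hm | hm
        · obtain ⟨m, rfl⟩ := Int.eq_ofNat_of_zero_le hm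
          rw [HahnSeries.ofPowerSeries_apply_coeff, HahnSeries.ofPowerSeries_apply_coeff,
            PowerSeries.coeff_map]
        · rw [coeff_ofPowerSeries_of_neg _ hm, coeff_ofPowerSeries_of_neg _ hm, map_zero]
    rw [hrw, HahnSeries.order_mul (by simp) (fun h' => hv0 ?_), HahnSeries.order_single one_ne_zero,
      order_ofPowerSeries_of_constantCoeff hv0, add_zero]
    rw [(HahnSeries.ofPowerSeries_injective (Γ := ℤ)) (h'.trans (map_zero _).symm), map_zero]
  have h3 := congrArg HahnSeries.order h2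
  rw [HahnSeries.order_mul (fun h' => by simpa [h'] using (hwu.map red)) (pow_ne_zero n hP''),
    HahnSeries.order_pow, HahnSeries.order_pow, hw', nsmul_eq_mul, nsmul_eq_mul] at h3
  exact ⟨(red Q').order - (red P').order, by linear_combination h3⟩

end Fermat.Agent.Carayol.Local
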