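import Fermat.Agent.Carayol.Model
import Fermat.Agent.FlatBound.InertiaField
import Mathlib.RingTheory.DiscreteValuationRing.Basic
import Mathlib.FieldTheory.Minpoly.Field

/-!
# The inertia field and its finite extensions

`W = unramInt A` is a discrete valuation ring with uniformiser `q` and the full residue field, and
the valuation is discrete on every finite extension of the inertia field.
-/

set_option autoImplicit false

noncomputable section

open Fermat.Agent.GaloisBasics (Qbar)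
open Fermat.Agent.KummerReduction

namespace Fermat.Agent.Carayol.Local

variable {A : ValuationSubring Qbar} {q : ℕ}

/-- The inertia field is the fixed field of inertia. -/
theorem mem_inertiaField_iff {x : Qbar} :
    x ∈ inertiaField A ↔ ∀ σ ∈ A.inertiaSubgroupIn ℚ, σ x = x :=
  IntermediateField.mem_fixedField_iff _ _

theorem exists_zpow_of_mem_inertiaField (hA : A.LiesOverPrime q) (hq : q.Prime) {x : Qbar}
    (hx : x ∈ inertiaField A) (hx0 : x ≠ 0) :
    ∃ j : ℤ, A.valuation x = A.valuation (q : Qbar) ^ j :=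
  FlatBound.exists_zpow_of_inertia_fixed hA hq hx0 (mem_inertiaField_iff.1 hx)

/-- Every element of `ℚ̄` becomes integral after multiplication by a power of `q`. -/
theorem exists_mul_pow_mem (hA : A.LiesOverPrime q) (hq : q.Prime) (c : Qbar) :
    ∃ j : ℕ, c * (q : Qbar) ^ j ∈ A := by
  rcases eq_or_ne c 0 with rfl | hc
  · exact ⟨0, by simp⟩
  have : FiniteDimensional ℚ (IntermediateField.adjoin ℚ ({c} : Set Qbar)) :=
    IntermediateField.adjoin.finiteDimensional (Algebra.IsAlgebraic.isAlgebraic c).isIntegral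
  obtain ⟨j, hj⟩ := LocalInertia.exists_valuation_pow_factorial hq hA _
    (IntermediateField.mem_adjoin_simple_self ℚ c) hc
  set K := (Module.finrank ℚ (IntermediateField.adjoin ℚ ({c} : Set Qbar))).factorial with hK
  refine ⟨j.natAbs, (A.valuation_le_one_iff _).1 ?_⟩
  refine (pow_le_one_iff_of_nonneg zero_le (Nat.factorial_ne_zero _ : K ≠ 0)).1 ?_
  have hv0 := FlatBound.valuation_natCast_prime_pos A hq
  have hv1 := FlatBound.valuation_natCast_prime_lt_one hA
  rw [map_mul, mul_pow, hj, map_pow, ← pow_mul, ← zpow_natCast (A.valuation (q : Qbar)),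
    ← zpow_add₀ hv0.ne', ← zpow_zero (A.valuation (q : Qbar)),
    zpow_le_zpow_iff_right_of_lt_one₀ hv0 hv1]
  have hKpos : (1 : ℤ) ≤ K := by exact_mod_cast Nat.factorial_pos _
  push_cast
  nlinarith [abs_nonneg j, neg_abs_le j]

/-- The valuation is discrete on the inertia field, with uniformiser `q`. -/
theorem inertiaDiscrete (hA : A.LiesOverPrime q) (hq : q.Prime) :
    (resData A).Discrete (inertiaField A).toSubfield (q : Qbar) where
  mem := natCast_mem _ q
  ne_zero := Nat.cast_ne_zero.2 hq.ne_zero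
  nonunit := hA
  exists_zpow _ hx hx0 := exists_zpow_of_mem_inertiaField hA hq hx hx0
  archimedean := exists_mul_pow_mem hA hq

/-- The value group of a finite extension of the inertia field, up to bounded torsion. -/
theorem exists_valuation_pow_factorial (hA : A.LiesOverPrime q) (hq : q.Prime)
    (L : IntermediateField (inertiaField A) Qbar) [FiniteDimensional (inertiaField A) L]
    {x : Qbar} (hxL : x ∈ L) (hx0 : x ≠ 0) :
    ∃ j : ℤ, A.valuation x ^ (Module.finrank (inertiaField A) L).factorial =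
      A.valuation (q : Qbar) ^ j := by
  have hint : IsIntegral (inertiaField A) (⟨x, hxL⟩ : L) := IsIntegral.of_finite _ _
  set p := minpoly (inertiaField A) (⟨x, hxL⟩ : L) with hpdef
  have hdeg : p.natDegree ≤ Module.finrank (inertiaField A) L := minpoly.natDegree_le _
  have hp0 : p ≠ 0 := minpoly.ne_zero hint
  have hsum : ∑ i ∈ p.support, (p.coeff i : Qbar) * x ^ i = 0 := by
    have h : Polynomial.aeval x p = 0 := by
      have := congrArg L.val (minpoly.aeval (inertiaField A) (⟨x, hxL⟩ : L))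
      rw [← Polynomial.aeval_algHom_apply, map_zero] at this
      exact this
    rw [Polynomial.aeval_def, Polynomial.eval₂_eq_sum, Polynomial.sum_def] at h
    simpa using h
  obtain ⟨i, hi, hmax⟩ := p.support.exists_max_image
    (fun i => A.valuation ((p.coeff i : Qbar) * x ^ i)) (Polynomial.support_nonempty.2 hp0)
  have hcne : ∀ k ∈ p.support, (p.coeff k : Qbar) ≠ 0 := fun k hk =>
    fun h => Polynomial.mem_support_iff.1 hk (Subtype.ext h)
  have hterm : ∀ k ∈ p.support, A.valuation ((p.coeff k : Qbar) * x ^ k) ≠ 0 := fun k hk =>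
    (map_ne_zero A.valuation).2 (mul_ne_zero (hcne k hk) (pow_ne_zero _ hx0))
  obtain ⟨j, hj, hji, heq⟩ : ∃ j ∈ p.support, j ≠ i ∧
      A.valuation ((p.coeff j : Qbar) * x ^ j) = A.valuation ((p.coeff i : Qbar) * x ^ i) := by
    by_contra! hcon
    have h := A.valuation.map_sum_eq_of_lt (s := p.support)
      (f := fun k => (p.coeff k : Qbar) * x ^ k) (j := i) hi (fun k hk => by
        simp only [Finset.mem_sdiff, Finset.mem_singleton] at hk
        exact lt_of_le_of_ne (hmax k hk.1) (hcon k hk.1 hk.2))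
    rw [hsum, map_zero] at h
    exact hterm i hi h.symm
  obtain ⟨a, ha⟩ := exists_zpow_of_mem_inertiaField hA hq (p.coeff i).2 (hcne i hi)
  obtain ⟨b, hb⟩ := exists_zpow_of_mem_inertiaField hA hq (p.coeff j).2 (hcne j hj)
  rw [map_mul, map_mul, map_pow, map_pow, ha, hb] at heq
  have hv : A.valuation x ≠ 0 := (map_ne_zero A.valuation).2 hx0
  have hq0 := (FlatBound.valuation_natCast_prime_pos A hq).ne'
  have key : A.valuation x ^ ((j : ℤ) - i) = A.valuation (q : Qbar) ^ (a - b) := by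
    rw [zpow_sub₀ hv, zpow_sub₀ hq0, div_eq_div_iff (zpow_ne_zero _ hv) (zpow_ne_zero _ hq0),
      zpow_natCast, zpow_natCast, mul_comm, heq]
  have hdvd : ((j : ℤ) - i) ∣ ((Module.finrank (inertiaField A) L).factorial : ℤ) := by
    rw [← Int.natAbs_dvd, Int.natCast_dvd_natCast]
    have h1 : i ≤ p.natDegree := Polynomial.le_natDegree_of_mem_supp _ hi
    have h2 : j ≤ p.natDegree := Polynomial.le_natDegree_of_mem_supp _ hj
    exact Nat.dvd_factorial (by omega) (by omega)
  obtain ⟨c, hc⟩ := hdvd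
  exact ⟨(a - b) * c, by rw [zpow_mul, ← key, ← zpow_mul, ← hc, zpow_natCast]⟩

/-- The valuation is discrete on a finite extension of the inertia field. -/
theorem exists_discrete (hA : A.LiesOverPrime q) (hq : q.Prime)
    (L : IntermediateField (inertiaField A) Qbar) [FiniteDimensional (inertiaField A) L] :
    ∃ ϖ : Qbar, (resData A).Discrete L.toSubfield ϖ := by
  set N := (Module.finrank (inertiaField A) L).factorial with hN
  have hq0 := FlatBound.valuation_natCast_prime_pos A hq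
  have hq1 := FlatBound.valuation_natCast_prime_lt_one hA
  let S : AddSubgroup ℤ :=
    { carrier := {j | ∃ x : Qbar, x ∈ L ∧ x ≠ 0 ∧ A.valuation x ^ N = A.valuation (q : Qbar) ^ j}
      zero_mem' := ⟨1, L.one_mem, one_ne_zero, by simp⟩
      add_mem' := by
        rintro a b ⟨x, hxF, hx0, hx⟩ ⟨y, hyF, hy0, hy⟩
        exact ⟨x * y, L.mul_mem hxF hyF, mul_ne_zero hx0 hy0, by
          rw [map_mul, mul_pow, hx, hy, zpow_add₀ hq0.ne']⟩
      neg_mem' := by
        rintro a ⟨x, hxF, hx0, hx⟩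
        exact ⟨x⁻¹, L.inv_mem hxF, inv_ne_zero hx0, by rw [map_inv₀, inv_pow, hx, zpow_neg]⟩ }
  obtain ⟨g₀, hg₀⟩ := Int.subgroup_cyclic S
  have hNS : (N : ℤ) ∈ S := ⟨(q : Qbar), natCast_mem L q, Nat.cast_ne_zero.2 hq.ne_zero,
    (zpow_natCast _ N).symm⟩
  set g : ℤ := |g₀| with hg
  have hgS : g ∈ S := by
    have h : g₀ ∈ S := hg₀ ▸ AddSubgroup.subset_closure rfl
    rcases abs_choice g₀ with h' | h' <;> rw [hg, h']
    exacts [h, neg_mem h]
  have hdvd : ∀ j ∈ S, g ∣ j := by
    intro j hj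
    rw [hg₀, AddSubgroup.mem_closure_singleton] at hj
    obtain ⟨c, rfl⟩ := hj
    exact (abs_dvd _ _).2 (Dvd.intro_left c (smul_eq_mul c g₀).symm)
  have hgpos : 0 < g := by
    refine lt_of_le_of_ne (abs_nonneg _) fun h => ?_
    have := hdvd _ hNS
    rw [← h, zero_dvd_iff] at this
    exact Nat.factorial_ne_zero _ (by exact_mod_cast this)
  obtain ⟨ϖ, hϖL, hϖ0, hϖ⟩ := hgS
  have hN0 : N ≠ 0 := Nat.factorial_ne_zero _
  have hlt : A.valuation ϖ < 1 := by
    refine (pow_lt_one_iff_of_nonneg zero_le hN0).1 ?_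
    rw [hϖ, ← zpow_zero (A.valuation (q : Qbar))]
    exact zpow_lt_zpow_right_of_lt_one₀ hq0 hq1 hgpos
  refine ⟨ϖ, hϖL, hϖ0, A.mem_nonunits_iff.2 hlt, fun x hxL hx0 => ?_, fun c => ?_⟩
  · obtain ⟨j, hj⟩ := exists_valuation_pow_factorial hA hq L hxL hx0
    obtain ⟨c, rfl⟩ := hdvd j ⟨x, hxL, hx0, hj⟩
    refine ⟨c, (pow_left_inj₀ zero_le zero_le hN0).1 ?_⟩
    show A.valuation x ^ N = (A.valuation ϖ ^ c) ^ N
    rw [← zpow_natCast (A.valuation ϖ ^ c), ← zpow_mul, mul_comm c, zpow_mul, zpow_natCast, hϖ,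
      hj, zpow_mul]
  · obtain ⟨j, hj⟩ := exists_mul_pow_mem hA hq c
    refine ⟨N * j, (A.valuation_le_one_iff _).1 ?_⟩
    have h := (A.valuation_le_one_iff _).2 hj
    rw [map_mul, map_pow] at h ⊢
    refine le_trans (mul_le_mul_right ?_ _) h
    rw [pow_mul, hϖ, ← zpow_natCast (A.valuation (q : Qbar) ^ g), ← zpow_mul, ← zpow_natCast,
      zpow_le_zpow_iff_right_of_lt_one₀ hq0 hq1]
    nlinarith

/-- Finitely many elements lie in a finite extension of the inertia field. -/
theorem exists_finite_extension (S : Finset Qbar) :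
    ∃ L : IntermediateField (inertiaField A) Qbar, FiniteDimensional (inertiaField A) L ∧
      ∀ x ∈ S, x ∈ L :=
  ⟨IntermediateField.adjoin _ (S : Set Qbar),
    IntermediateField.finiteDimensional_adjoin fun x _ =>
      ((Algebra.IsAlgebraic.isAlgebraic (R := ℚ) x).isIntegral).tower_top,
    fun _ hx => IntermediateField.subset_adjoin _ _ hx⟩

/-- The residue map of `W` is surjective. -/
theorem exists_unramInt_residue (hA : A.LiesOverPrime q) (hq : q.Prime)
    (y : IsLocalRing.ResidueField A) :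
    ∃ x : A, (x : Qbar) ∈ unramInt A ∧ IsLocalRing.residue A x = y := by
  rcases eq_or_ne y 0 with rfl | hy
  · exact ⟨0, zero_mem _, map_zero _⟩
  obtain ⟨f, hf, hyf⟩ := GaloisBasics.exists_pow_card_eq hA hq y
  obtain ⟨w, hw, hwy⟩ := FlatBound.exists_root_of_unity_residue hA hq hy hf hyf
  refine ⟨w, mem_unramInt_iff.2 ⟨w.2, fun σ hσ => ?_⟩, hwy⟩
  have hq1 : 1 < q ^ f := Nat.one_lt_pow hf.ne' hq.one_lt
  refine GaloisBasics.inertia_apply_of_pow_eq_one hA hq (fun h => ?_) hσ hw
  have h1 : q ∣ q ^ f - 1 + 1 := by rw [Nat.sub_add_cancel hq1.le]; exact dvd_pow_self q hf.ne'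
  exact hq.one_lt.ne' (Nat.dvd_one.1 ((Nat.dvd_add_right h).1 h1))

/-- Natural numbers lie in `W`. -/
theorem natCast_mem_unramInt (A : ValuationSubring Qbar) (n : ℕ) : (n : Qbar) ∈ unramInt A :=
  natCast_mem _ n

/-- Roots of unity of order prime to `q` lie in `W`. -/
theorem rootOfUnity_mem_unramInt (hA : A.LiesOverPrime q) (hq : q.Prime) {n : ℕ} (hn : ¬ q ∣ n)
    {ζ : Qbar} (hζ : ζ ^ n = 1) : ζ ∈ unramInt A := by
  have hn0 : 0 < n := Nat.pos_of_ne_zero fun h => hn (h ▸ dvd_zero q)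
  exact mem_unramInt_iff.2 ⟨FlatBound.mem_of_pow_eq_one hn0 hζ,
    fun σ hσ => GaloisBasics.inertia_apply_of_pow_eq_one hA hq hn hσ hζ⟩

/-- Distinct roots of unity of order prime to `q` differ by a unit of `A`. -/
theorem valuation_rootOfUnity_sub (hA : A.LiesOverPrime q) (hq : q.Prime) {n : ℕ} (hn : ¬ q ∣ n)
    {ζ ξ : Qbar} (hζ : ζ ^ n = 1) (hξ : ξ ^ n = 1) (h : ζ ≠ ξ) :
    A.valuation (ζ - ξ) = 1 := by
  have hn0 : 0 < n := Nat.pos_of_ne_zero fun h => hn (h ▸ dvd_zero q)
  refine le_antisymm ((A.valuation_le_one_iff _).2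
    (sub_mem (FlatBound.mem_of_pow_eq_one hn0 hζ) (FlatBound.mem_of_pow_eq_one hn0 hξ)))
    (not_lt.1 fun hlt => h ?_)
  exact GaloisBasics.eq_of_pow_eq_one_of_sub_mem_nonunits hA hq hn hξ hζ
    (A.mem_nonunits_iff.2 hlt)

/-- An element of `W` of valuation `1` is a unit of `W`. -/
theorem isUnit_unramInt_iff {x : unramInt A} :
    IsUnit x ↔ A.valuation (x : Qbar) = 1 := by
  constructor
  · rintro ⟨u, rfl⟩
    have h1 : A.valuation ((u : unramInt A) : Qbar) * A.valuation ((↑u⁻¹ : unramInt A) : Qbar) = 1 := by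
      rw [← map_mul, ← Subring.coe_mul, Units.mul_inv, Subring.coe_one, map_one]
    refine le_antisymm ((A.valuation_le_one_iff _).2 (mem_unramInt_iff.1 (u : unramInt A).2).1) ?_
    rw [← h1]
    exact mul_le_of_le_one_right'
      ((A.valuation_le_one_iff _).2 (mem_unramInt_iff.1 (↑u⁻¹ : unramInt A).2).1)
  · intro h
    have hx0 : (x : Qbar) ≠ 0 := fun h0 => by simp [h0] at h
    have hinv : (x : Qbar)⁻¹ ∈ unramInt A := mem_unramInt_iff.2
      ⟨(A.valuation_le_one_iff _).1 (by rw [map_inv₀, h, inv_one]),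
        fun σ hσ => by rw [map_inv₀, (mem_unramInt_iff.1 x.2).2 σ hσ]⟩
    exact IsUnit.of_mul_eq_one ⟨_, hinv⟩ (Subtype.ext (mul_inv_cancel₀ hx0))

/-- Structure of the elements of `W`: a power of `q` times a unit. -/
theorem exists_eq_pow_mul (hA : A.LiesOverPrime q) (hq : q.Prime) {x : unramInt A} (hx : x ≠ 0) :
    ∃ (n : ℕ) (u : (unramInt A)ˣ), x = (q : unramInt A) ^ n * u := by
  have hx0 : (x : Qbar) ≠ 0 := fun h => hx (Subtype.ext h)
  obtain ⟨j, hj⟩ := exists_zpow_of_mem_inertiaField hA hq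
    (mem_inertiaField_iff.2 (mem_unramInt_iff.1 x.2).2) hx0
  have hq0 := FlatBound.valuation_natCast_prime_pos A hq
  have hj0 : 0 ≤ j := by
    rw [← (inertiaDiscrete hA hq).val_le_zpow_iff, show (resData A).A = A from rfl, ← hj]
    exact (A.valuation_le_one_iff _).2 (mem_unramInt_iff.1 x.2).1
  obtain ⟨n, rfl⟩ := Int.eq_ofNat_of_zero_le hj0
  have hqQ : (q : Qbar) ≠ 0 := Nat.cast_ne_zero.2 hq.ne_zero
  have hv : A.valuation ((x : Qbar) / (q : Qbar) ^ n) = 1 := by
    rw [map_div₀, map_pow, hj, zpow_natCast, div_self (pow_ne_zero _ hq0.ne')]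
  have hmem : (x : Qbar) / (q : Qbar) ^ n ∈ unramInt A := mem_unramInt_iff.2
    ⟨(A.valuation_le_one_iff _).1 hv.le, fun σ hσ => by
      rw [map_div₀, map_pow, map_natCast, (mem_unramInt_iff.1 x.2).2 σ hσ]⟩
  refine ⟨n, (isUnit_unramInt_iff (x := ⟨_, hmem⟩) |>.2 hv).unit, Subtype.ext ?_⟩
  rw [Subring.coe_mul, IsUnit.unit_spec, SubmonoidClass.coe_pow, Subring.coe_natCast]
  exact (mul_div_cancel₀ _ (pow_ne_zero _ hqQ)).symm

/-- `q` is not a unit of `W`. -/
theorem not_isUnit_natCast (hA : A.LiesOverPrime q) : ¬ IsUnit (q : unramInt A) := by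
  rw [isUnit_unramInt_iff, Subring.coe_natCast]
  exact (A.mem_nonunits_iff.1 hA).ne

/-- `W` is a discrete valuation ring. -/
theorem isDiscreteValuationRing_unramInt (hA : A.LiesOverPrime q) (hq : q.Prime) :
    IsDiscreteValuationRing (unramInt A) := by
  have hne : (q : unramInt A) ≠ 0 := fun h =>
    hq.ne_zero (by exact_mod_cast (congrArg Subtype.val h : ((q : unramInt A) : Qbar) = 0))
  have hu := @not_isUnit_natCast A q hA
  refine IsDiscreteValuationRing.ofHasUnitMulPowIrreducibleFactorization ⟨(q : unramInt A), ⟨hu,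
    fun a b hab => ?_⟩, fun {x} hx => ?_⟩
  · have ha : a ≠ 0 := fun h => hne (by rw [hab, h, zero_mul])
    have hb : b ≠ 0 := fun h => hne (by rw [hab, h, mul_zero])
    obtain ⟨i, u, rfl⟩ := exists_eq_pow_mul hA hq ha
    obtain ⟨k, w, rfl⟩ := exists_eq_pow_mul hA hq hb
    rcases Nat.eq_zero_or_pos i with rfl | hi
    · exact Or.inl (by simp)
    rcases Nat.eq_zero_or_pos k with rfl | hk
    · exact Or.inr (by simp)
    exfalso
    refine hu (IsUnit.of_mul_eq_one ((q : unramInt A) ^ (i + k - 2) * (u * w)) ?_)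
    have h := hab
    rw [mul_mul_mul_comm, ← pow_add, show i + k = 1 + (1 + (i + k - 2)) by omega, pow_add, pow_one,
      pow_add, pow_one, mul_assoc] at h
    conv_lhs at h => rw [← mul_one (q : unramInt A)]
    rw [← mul_assoc]
    exact (mul_left_cancel₀ hne h).symm
  · obtain ⟨n, u, rfl⟩ := exists_eq_pow_mul hA hq hx
    exact ⟨n, ⟨u, rfl⟩⟩

/-- The maximal ideal of `W` is generated by `q`. -/
theorem mem_span_natCast_iff (hA : A.LiesOverPrime q) (hq : q.Prime) {x : unramInt A} :
    x ∈ Ideal.span {(q : unramInt A)} ↔ A.valuation (x : Qbar) < 1 := by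
  constructor
  · rw [Ideal.mem_span_singleton]
    rintro ⟨c, rfl⟩
    rw [Subring.coe_mul, map_mul, Subring.coe_natCast]
    exact mul_lt_one_of_lt_of_le (A.mem_nonunits_iff.1 hA)
      ((A.valuation_le_one_iff _).2 (mem_unramInt_iff.1 c.2).1)
  · intro h
    rcases eq_or_ne x 0 with rfl | hx
    · exact zero_mem _
    obtain ⟨n, u, rfl⟩ := exists_eq_pow_mul hA hq hx
    rcases Nat.eq_zero_or_pos n with rfl | hn
    · rw [pow_zero, one_mul, (isUnit_unramInt_iff).1 u.isUnit] at h
      exact absurd h (lt_irrefl _)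
    exact Ideal.mem_span_singleton.2 ((dvd_pow_self _ hn.ne').mul_right _)

end Fermat.Agent.Carayol.Local
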